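import Mathlib

/-!
# Generic fibres of a rational function are separable (helper701, S41 piece D1)

Abstract polynomial input for `Nat.card E[n] = n ^ 2`.
-/

open Polynomial

set_option autoImplicit false

namespace Fermat.Agent.S41.H701

section GenericFibre

variable {K : Type*} [Field K] [IsAlgClosed K]

/-- Over an algebraically closed field, polynomials without common root are coprime. -/
lemma isCoprime_of_no_common_root_h701 (p q : K[X])
    (h : ∀ x : K, ¬ (p.eval x = 0 ∧ q.eval x = 0)) : IsCoprime p q := by
  rw [Polynomial.isCoprime_iff_aeval_ne_zero_of_isAlgClosed K K]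
  intro a
  by_contra hcon
  rw [not_or, not_not, not_not] at hcon
  exact h a ⟨by simpa using hcon.1, by simpa using hcon.2⟩

/-- **Generic fibre is separable.**  Let `N, D` be polynomials over an algebraically closed field
of characteristic zero without common root, with `N` non-constant.  Then for all but finitely
many `t`, the polynomial `N - t D` is separable. -/
theorem exists_finset_separable_h701 [CharZero K] (N D : K[X]) (hN : 0 < N.natDegree)
    (hcop : ∀ x : K, ¬ (N.eval x = 0 ∧ D.eval x = 0)) :
    ∃ B : Finset K, ∀ t : K, t ∉ B → (N - C t * D).Separable := by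
  classical
  set H : K[X] := N * derivative D - derivative N * D with hH
  have hND : IsCoprime N D := isCoprime_of_no_common_root_h701 N D hcop
  have hN' : derivative N ≠ 0 := by
    intro h0
    have := Polynomial.derivative_eq_zero.mp h0
    omega
  have hH0 : H ≠ 0 := by
    intro h0
    have h1 : N * derivative D = derivative N * D := sub_eq_zero.mp h0
    have h2 : N ∣ derivative N * D := ⟨derivative D, h1.symm⟩
    have h3 : N ∣ derivative N := hND.dvd_of_dvd_mul_right h2
    have h4 := natDegree_le_of_dvd h3 hN'
    have h5 := natDegree_derivative_lt (p := N) (by omega)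
    omega
  refine ⟨H.roots.toFinset.image (fun x => N.eval x / D.eval x), ?_⟩
  intro t ht
  rw [separable_def]
  apply isCoprime_of_no_common_root_h701
  rintro x ⟨hx1, hx2⟩
  simp only [eval_sub, eval_mul, eval_C, derivative_sub, derivative_mul, derivative_C, zero_mul,
    zero_add] at hx1 hx2
  have hDx : D.eval x ≠ 0 := by
    intro hD
    rw [hD, mul_zero, sub_zero] at hx1
    exact hcop x ⟨hx1, hD⟩
  have ht' : t = N.eval x / D.eval x := by
    rw [eq_div_iff hDx]; linear_combination -hx1
  apply ht
  rw [Finset.mem_image]
  refine ⟨x, ?_, ht'.symm⟩
  rw [Multiset.mem_toFinset, mem_roots hH0, IsRoot.def, hH]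
  simp only [eval_sub, eval_mul]
  have e1 : N.eval x = t * D.eval x := by linear_combination hx1
  have e2 : (derivative N).eval x = t * (derivative D).eval x := by linear_combination hx2
  rw [e1, e2]; ring

/-- A separable polynomial over an algebraically closed field has `natDegree` roots. -/
theorem card_roots_of_separable_h701 (G : K[X]) (hG : G.Separable) :
    Nat.card {x : K // G.eval x = 0} = G.natDegree := by
  classical
  have hG0 : G ≠ 0 := hG.ne_zero
  have h1 := card_rootSet_eq_natDegree (K := K) hG (IsAlgClosed.splits _)
  rw [← h1, ← Nat.card_eq_fintype_card]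
  apply Nat.card_congr
  refine Equiv.subtypeEquivRight ?_
  intro x
  rw [mem_rootSet]
  simp [hG0]

end GenericFibre

end Fermat.Agent.S41.H701
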