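import Mathlib
import Fermat.Agent.S13.H891.Torsion
import Fermat.Agent.S41.H701.GenericFibre

/-!
# `#E[n] = n ^ 2` over an algebraically closed field of characteristic zero
(helper701, S41 piece D1)

Generic-fibre argument on the `x`-ladder of `S13/H891`: for generic `t = x(P)`, the fibre
`{Q | n • Q = P}` is in bijection (via `Q ↦ x(Q)`) with the roots of `N_n - t D_n`, a separable
polynomial of degree `n ^ 2`; and the fibre is a coset of `E[n]`.
-/

open WeierstrassCurve WeierstrassCurve.Affine Polynomial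
open Fermat.Agent.S51.Five (xc dD xc_neg xc_some eq_or_eq_neg_of_xc_eq exists_equation
  add_self_ne_zero_of_dD_ne_zero)
open Fermat.Agent.S13.H891

set_option autoImplicit false
set_option linter.unusedSectionVars false

namespace Fermat.Agent.S41.H701

variable {K : Type*} [Field K] [DecidableEq K] [IsAlgClosed K] [CharZero K]
  (E : WeierstrassCurve.Affine K) [E.IsElliptic]

/-- Every `x ∈ K` is the `x`-coordinate of a nonzero point. -/
lemma exists_point_xc_h701 (x : K) : ∃ Q : E.Point, Q ≠ 0 ∧ xc Q = x := by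
  obtain ⟨y, hy⟩ := exists_equation E x
  exact ⟨Point.some x y (Affine.equation_iff_nonsingular.mp hy), Point.some_ne_zero _, rfl⟩

/-- The ladder polynomials have no common root. -/
lemma polyN_polyD_no_common_root_h701 (n : ℕ) (x : K) :
    ¬ ((polyN E.b₂ E.b₄ E.b₆ E.b₈ n).eval x = 0 ∧ (polyD E.b₂ E.b₄ E.b₆ E.b₈ n).eval x = 0) := by
  obtain ⟨Q, hQ, rfl⟩ := exists_point_xc_h701 E x
  rw [eval_polyN, eval_polyD]
  rintro ⟨h1, h2⟩
  rcases rep_lad hQ n with ⟨-, -, h⟩ | ⟨-, h, -⟩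
  · exact h h1
  · exact h h2

lemma natDegree_polyN_h701 (n : ℕ) (hn : 1 ≤ n) :
    (polyN E.b₂ E.b₄ E.b₆ E.b₈ n).natDegree = n ^ 2 := by
  obtain ⟨h1, h2⟩ := (dc_poly E.b₂ E.b₄ E.b₆ E.b₈ n hn).1
  exact natDegree_eq_of_le_of_coeff_ne_zero h1 (by rw [h2]; exact one_ne_zero)

lemma natDegree_polyD_lt_h701 (n : ℕ) (hn : 1 ≤ n) :
    (polyD E.b₂ E.b₄ E.b₆ E.b₈ n).natDegree < n ^ 2 := by
  obtain ⟨h1, -⟩ := (dc_poly E.b₂ E.b₄ E.b₆ E.b₈ n hn).2
  have : 1 ≤ n ^ 2 := Nat.one_le_pow _ _ hn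
  omega

/-- the fibre polynomial `N_n - t D_n` -/
noncomputable def fibrePoly_h701 (n : ℕ) (t : K) : K[X] :=
  polyN E.b₂ E.b₄ E.b₆ E.b₈ n - C t * polyD E.b₂ E.b₄ E.b₆ E.b₈ n

lemma natDegree_fibrePoly_h701 (n : ℕ) (hn : 1 ≤ n) (t : K) :
    (fibrePoly_h701 E n t).natDegree = n ^ 2 := by
  rw [fibrePoly_h701, natDegree_sub_eq_left_of_natDegree_lt, natDegree_polyN_h701 E n hn]
  rw [natDegree_polyN_h701 E n hn]
  exact lt_of_le_of_lt (natDegree_C_mul_le _ _) (natDegree_polyD_lt_h701 E n hn)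

lemma eval_fibrePoly_h701 (n : ℕ) (t x : K) :
    (fibrePoly_h701 E n t).eval x
      = ladN E.b₂ E.b₄ E.b₆ E.b₈ x n - t * ladD E.b₂ E.b₄ E.b₆ E.b₈ x n := by
  rw [fibrePoly_h701, eval_sub, eval_mul, eval_C, eval_polyN, eval_polyD]

variable {E}

/-- `x(Q)` is a root of the fibre polynomial over `x(n • Q)`. -/
lemma eval_fibrePoly_xc_h701 (n : ℕ) {Q P : E.Point} (hP : P ≠ 0) (h : n • Q = P) :
    (fibrePoly_h701 E n (xc P)).eval (xc Q) = 0 := by
  have hQ : Q ≠ 0 := by
    rintro rfl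
    rw [smul_zero] at h
    exact hP h.symm
  rw [eval_fibrePoly_h701]
  rcases rep_lad hQ n with ⟨h0, -, -⟩ | ⟨-, -, h3⟩
  · rw [h] at h0; exact absurd h0 hP
  · rw [← h3, h]; ring

/-- Conversely a root of the fibre polynomial over `x(P)` is `x(Q)` with `n • Q = P`. -/
lemma exists_of_eval_fibrePoly_h701 (n : ℕ) {P : E.Point} (hP : P ≠ 0) {x : K}
    (hx : (fibrePoly_h701 E n (xc P)).eval x = 0) :
    ∃ Q : E.Point, n • Q = P ∧ xc Q = x := by
  obtain ⟨Q, hQ, rfl⟩ := exists_point_xc_h701 E x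
  rw [eval_fibrePoly_h701] at hx
  rcases rep_lad hQ n with ⟨-, h2, h3⟩ | ⟨h1, h2, h3⟩
  · rw [h2, mul_zero, sub_zero] at hx
    exact absurd hx h3
  · have hxc : xc (n • Q) = xc P := by
      have : (xc (n • Q) - xc P) * ladD E.b₂ E.b₄ E.b₆ E.b₈ (xc Q) n = 0 := by
        rw [sub_mul, h3]; exact hx
      exact sub_eq_zero.mp ((mul_eq_zero.mp this).resolve_right h2)
    rcases eq_or_eq_neg_of_xc_eq h1 hP hxc with h | h
    · exact ⟨Q, h, rfl⟩
    · refine ⟨-Q, ?_, xc_neg Q⟩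
      rw [smul_neg, h, neg_neg]

/-- The fibre of `[n]` over a point `P` which is not `2`-torsion is in bijection with the roots
of the fibre polynomial. -/
noncomputable def fibreEquivRoots_h701 (n : ℕ) {P : E.Point} (hP : P ≠ 0) (h2P : P + P ≠ 0) :
    {Q : E.Point // n • Q = P} ≃ {x : K // (fibrePoly_h701 E n (xc P)).eval x = 0} :=
  Equiv.ofBijective (fun Q => ⟨xc Q.1, eval_fibrePoly_xc_h701 n hP Q.2⟩) (by
    constructor
    · rintro ⟨Q, hQ⟩ ⟨Q', hQ'⟩ h
      have hx : xc Q = xc Q' := congrArg Subtype.val h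
      have hQ0 : Q ≠ 0 := by
        rintro rfl
        rw [smul_zero] at hQ
        exact hP hQ.symm
      have hQ'0 : Q' ≠ 0 := by
        rintro rfl
        rw [smul_zero] at hQ'
        exact hP hQ'.symm
      rcases eq_or_eq_neg_of_xc_eq hQ0 hQ'0 hx with h' | h'
      · exact Subtype.ext h'
      · exfalso
        apply h2P
        have hPneg : P = -P := by
          calc P = n • Q := hQ.symm
            _ = n • (-Q') := by rw [h']
            _ = -(n • Q') := smul_neg n Q'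
            _ = -P := by rw [hQ']
        calc P + P = P + -P := by rw [← hPneg]
          _ = 0 := add_neg_cancel P
    · rintro ⟨x, hx⟩
      obtain ⟨Q, hQ, hxQ⟩ := exists_of_eval_fibrePoly_h701 n hP hx
      exact ⟨⟨Q, hQ⟩, Subtype.ext hxQ⟩)

/-- A nonempty fibre of `[n]` is a coset of `E[n]`. -/
noncomputable def fibreEquivTorsion_h701 (n : ℕ) {P : E.Point} (Q₀ : E.Point)
    (hQ₀ : n • Q₀ = P) :
    {Q : E.Point // n • Q = P} ≃ Submodule.torsionBy ℤ E.Point ((n : ℕ) : ℤ) where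
  toFun Q := ⟨Q.1 - Q₀, by
    rw [Submodule.mem_torsionBy_iff, natCast_zsmul, smul_sub, Q.2, hQ₀, sub_self]⟩
  invFun T := ⟨T.1 + Q₀, by
    have h := (Submodule.mem_torsionBy_iff _ _).mp T.2
    rw [natCast_zsmul] at h
    rw [smul_add, h, hQ₀, zero_add]⟩
  left_inv Q := Subtype.ext (by simp)
  right_inv T := Subtype.ext (by simp)

variable (E)

/-- **The `n`-torsion of an elliptic curve over an algebraically closed field of characteristic
zero has exactly `n ^ 2` elements.** -/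
theorem card_torsionBy_eq_sq_h701 (n : ℕ) (hn : 1 ≤ n) :
    Nat.card (Submodule.torsionBy ℤ E.Point ((n : ℕ) : ℤ)) = n ^ 2 := by
  classical
  -- bad values of `t`
  obtain ⟨B, hB⟩ := exists_finset_separable_h701 (polyN E.b₂ E.b₄ E.b₆ E.b₈ n)
    (polyD E.b₂ E.b₄ E.b₆ E.b₈ n)
    (by rw [natDegree_polyN_h701 E n hn]; positivity)
    (polyN_polyD_no_common_root_h701 E n)
  set T : K[X] := C 4 * X ^ 3 + C E.b₂ * X ^ 2 + C (2 * E.b₄) * X + C E.b₆ with hT
  have hT0 : T ≠ 0 := by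
    intro h
    have := congrArg (fun p : K[X] => p.coeff 3) h
    simp [hT] at this
  obtain ⟨t, ht⟩ := Infinite.exists_notMem_finset (B ∪ T.roots.toFinset)
  rw [Finset.mem_union, not_or] at ht
  obtain ⟨htB, htT⟩ := ht
  obtain ⟨P, hP, rfl⟩ := exists_point_xc_h701 E t
  have h2P : P + P ≠ 0 := by
    apply add_self_ne_zero_of_dD_ne_zero hP
    intro h
    apply htT
    rw [Multiset.mem_toFinset, mem_roots hT0, IsRoot.def, hT]
    simp only [eval_add, eval_mul, eval_C, eval_pow, eval_X]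
    simp only [dD] at h
    linear_combination h
  have hsep : (fibrePoly_h701 E n (xc P)).Separable := hB _ htB
  have hroots := card_roots_of_separable_h701 _ hsep
  rw [natDegree_fibrePoly_h701 E n hn] at hroots
  -- the fibre is nonempty
  have hne : Nonempty {x : K // (fibrePoly_h701 E n (xc P)).eval x = 0} := by
    by_contra h
    rw [not_nonempty_iff] at h
    rw [Nat.card_of_isEmpty] at hroots
    have : 1 ≤ n ^ 2 := Nat.one_le_pow _ _ hn
    omega
  obtain ⟨⟨x, hx⟩⟩ := hne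
  obtain ⟨Q₀, hQ₀, -⟩ := exists_of_eval_fibrePoly_h701 n hP hx
  rw [← Nat.card_congr (fibreEquivTorsion_h701 n Q₀ hQ₀),
    Nat.card_congr (fibreEquivRoots_h701 n hP h2P), hroots]

end Fermat.Agent.S41.H701
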