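import Mathlib
import Fermat.Prelude.Def_FLTPrelim_GaloisRep
import Fermat.Agent.S41.H701.CardTorsion

/-!
# `E[p]` is two-dimensional over `𝔽_p` (helper701, S41 piece D1)

In the Prelude language (`Submodule.torsionBy ℤ (W'⁄K).Point p` with the `ZMod p`-module
structure `instModuleZModTorsionBy`).
-/

open WeierstrassCurve WeierstrassCurve.Affine WeierstrassCurve.Affine.Point

set_option autoImplicit false

namespace Fermat.Agent.S41.H701

section

variable {R : Type*} {K : Type*} [CommRing R] [Field K] [DecidableEq K] [Algebra R K]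
  [IsAlgClosed K] [CharZero K] (W' : Affine R) [(W'⁄K).IsElliptic]

/-- `#E[n] = n ^ 2`, Prelude language. -/
theorem card_torsion_eq_sq_prelude_h701 (n : ℕ) (hn : 1 ≤ n) :
    Nat.card (Submodule.torsionBy ℤ (W'⁄K).Point n) = n ^ 2 :=
  card_torsionBy_eq_sq_h701 (W'⁄K) n hn

/-- `E[n]` is finite. -/
theorem finite_torsion_prelude_h701 (n : ℕ) (hn : 1 ≤ n) :
    Finite (Submodule.torsionBy ℤ (W'⁄K).Point n) := by
  apply Nat.finite_of_card_ne_zero
  rw [card_torsion_eq_sq_prelude_h701 W' n hn]
  positivity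

/-- `dim_{𝔽_p} E[p] = 2`. -/
theorem finrank_torsion_eq_two_h701 (p : ℕ) [hp : Fact p.Prime] :
    Module.finrank (ZMod p) (Submodule.torsionBy ℤ (W'⁄K).Point p) = 2 := by
  have hfin : Finite (Submodule.torsionBy ℤ (W'⁄K).Point p) :=
    finite_torsion_prelude_h701 W' p hp.out.one_le
  have h1 := card_torsion_eq_sq_prelude_h701 (K := K) W' p hp.out.one_le
  have h2 : Nat.card (Submodule.torsionBy ℤ (W'⁄K).Point p)
      = Nat.card (ZMod p) ^ Module.finrank (ZMod p) (Submodule.torsionBy ℤ (W'⁄K).Point p) :=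
    Module.natCard_eq_pow_finrank
  rw [Nat.card_zmod, h1] at h2
  exact (Nat.pow_right_injective hp.out.two_le h2).symm

end

end Fermat.Agent.S41.H701
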