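import Mathlib

/-!
# Linear algebra in dimension two (helper701, S41 piece D2)

* `ker_eq_of_unipotent_pair_h701`: two non-trivial unipotent endomorphisms of a plane whose
  product is unipotent have the same fixed line.
* `det_eq_of_quadratic_h701`: a non-scalar endomorphism `T` of a plane with `T² - aT + l = 0` has
  determinant `l`.
-/

set_option autoImplicit false

open Module

namespace Fermat.Agent.S41.H701

section LinAlg2

variable {k V : Type*} [Field k] [AddCommGroup V] [Module k V]

/-- A nonzero square-zero endomorphism of a plane: its kernel is a line `k e`, equal to its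
range. -/
lemma exists_ker_eq_span_h701 (hdim : finrank k V = 2) (A : End k V) (hA : A ≠ 0)
    (hA2 : A * A = 0) :
    ∃ e : V, e ≠ 0 ∧ A e = 0 ∧ (∀ x, A x = 0 → ∃ c : k, x = c • e) ∧ (∀ x, ∃ c : k, A x = c • e) := by
  have hfd : FiniteDimensional k V := FiniteDimensional.of_finrank_pos (by omega)
  have hrk := LinearMap.finrank_range_add_finrank_ker A
  rw [hdim] at hrk
  have hle : LinearMap.range A ≤ LinearMap.ker A := by
    rintro _ ⟨y, rfl⟩
    rw [LinearMap.mem_ker]
    have := congrArg (fun f : End k V => f y) hA2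
    simpa using this
  have hr0 : finrank k (LinearMap.range A) ≠ 0 := by
    intro h
    rw [Submodule.finrank_eq_zero, LinearMap.range_eq_bot] at h
    exact hA h
  have hle' := Submodule.finrank_mono hle
  have hk1 : finrank k (LinearMap.ker A) = 1 := by omega
  have hr1 : finrank k (LinearMap.range A) = 1 := by omega
  have heq : LinearMap.range A = LinearMap.ker A :=
    Submodule.eq_of_le_of_finrank_eq hle (by rw [hk1, hr1])
  obtain ⟨⟨e, he⟩, he0, hspan⟩ := finrank_eq_one_iff'.mp hk1
  refine ⟨e, ?_, LinearMap.mem_ker.mp he, ?_, ?_⟩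
  · intro h
    apply he0
    exact Subtype.ext h
  · intro x hx
    obtain ⟨c, hc⟩ := hspan ⟨x, LinearMap.mem_ker.mpr hx⟩
    exact ⟨c, (congrArg Subtype.val hc).symm⟩
  · intro x
    have hx : A x ∈ LinearMap.ker A := heq ▸ LinearMap.mem_range_self A x
    obtain ⟨c, hc⟩ := hspan ⟨A x, hx⟩
    exact ⟨c, (congrArg Subtype.val hc).symm⟩

/-- Two non-trivial unipotent endomorphisms of a plane whose product is unipotent fix the same
vectors. -/
theorem ker_le_of_unipotent_pair_h701 (hdim : finrank k V = 2) (u v : End k V)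
    (hu : (u - 1) * (u - 1) = 0) (hv : (v - 1) * (v - 1) = 0)
    (huv : (u * v - 1) * (u * v - 1) = 0) (hu1 : u ≠ 1) (hv1 : v ≠ 1)
    (x : V) (hx : u x = x) : v x = x := by
  set A : End k V := u - 1 with hAdef
  set B : End k V := v - 1 with hBdef
  have hA0 : A ≠ 0 := sub_ne_zero.mpr hu1
  have hB0 : B ≠ 0 := sub_ne_zero.mpr hv1
  obtain ⟨e, he0, hAe, hkerA, hrangeA⟩ := exists_ker_eq_span_h701 hdim A hA0 hu
  obtain ⟨f, hf0, hBf, hkerB, hrangeB⟩ := exists_ker_eq_span_h701 hdim B hB0 hv
  have hw : u * v - 1 = A + B + A * B := by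
    rw [hAdef, hBdef]; noncomm_ring
  rw [hw] at huv
  -- `A f = a e`, `B e = b f`
  obtain ⟨a, ha⟩ := hrangeA f
  obtain ⟨b, hb⟩ := hrangeB e
  have key := congrArg (fun T : End k V => A (T f)) huv
  simp only [Module.End.mul_apply, LinearMap.add_apply, LinearMap.zero_apply, map_zero,
    hBf, ha, map_add, map_smul, hAe, hb, smul_zero, add_zero, zero_add, smul_smul] at key
  -- key : (a * b * a) • e = 0  (up to normalisation)
  have hab : a = 0 ∨ b = 0 := by
    by_contra hcon
    rw [not_or] at hcon
    rcases smul_eq_zero.mp key with h | h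
    · simp [hcon.1, hcon.2] at h
    · exact he0 h
  have hAx : A x = 0 := by
    rw [hAdef, LinearMap.sub_apply, Module.End.one_apply, hx, sub_self]
  obtain ⟨c, rfl⟩ := hkerA x hAx
  have hBe : B e = 0 := by
    rcases hab with h | h
    · -- `A f = 0`, so `f ∈ ker A = k e`
      rw [h, zero_smul] at ha
      obtain ⟨c', hc'⟩ := hkerA f ha
      have hc'0 : c' ≠ 0 := by
        rintro rfl
        rw [zero_smul] at hc'
        exact hf0 hc'
      have : e = c'⁻¹ • f := by rw [hc', smul_smul, inv_mul_cancel₀ hc'0, one_smul]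
      rw [this, map_smul, hBf, smul_zero]
    · rw [hb, h, zero_smul]
  have : B (c • e) = 0 := by rw [map_smul, hBe, smul_zero]
  rw [hBdef, LinearMap.sub_apply, Module.End.one_apply, sub_eq_zero] at this
  exact this

/-- Powers of a unipotent endomorphism are unipotent (any ring). -/
lemma sq_zero_pow_sub_one_h701 {R : Type*} [Ring R] (T : R) (hT : (T - 1) * (T - 1) = 0)
    (j : ℕ) : (T ^ j - 1) * (T ^ j - 1) = 0 := by
  have h1 : T ^ j - 1 = (∑ i ∈ Finset.range j, T ^ i) * (T - 1) := (geom_sum_mul T j).symm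
  have h2 : T ^ j - 1 = (T - 1) * (∑ i ∈ Finset.range j, T ^ i) := (mul_geom_sum T j).symm
  calc (T ^ j - 1) * (T ^ j - 1)
      = ((∑ i ∈ Finset.range j, T ^ i) * (T - 1)) * ((T - 1) * (∑ i ∈ Finset.range j, T ^ i)) := by
        rw [← h1, ← h2]
    _ = (∑ i ∈ Finset.range j, T ^ i) * ((T - 1) * (T - 1)) * (∑ i ∈ Finset.range j, T ^ i) := by
        noncomm_ring
    _ = 0 := by rw [hT, mul_zero, zero_mul]

/-- A `2 × 2` matrix satisfying `M² - aM + l = 0` is scalar or has determinant `l`. -/
lemma matrix_det_eq_of_quadratic_h701 (M : Matrix (Fin 2) (Fin 2) k) (a l : k)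
    (hrel : M * M - a • M + l • (1 : Matrix (Fin 2) (Fin 2) k) = 0)
    (hns : ∀ s : k, M ≠ s • (1 : Matrix (Fin 2) (Fin 2) k)) : M.det = l := by
  have h00 := congrFun (congrFun hrel 0) 0
  have h01 := congrFun (congrFun hrel 0) 1
  have h10 := congrFun (congrFun hrel 1) 0
  have h11 := congrFun (congrFun hrel 1) 1
  simp only [Matrix.add_apply, Matrix.sub_apply, Matrix.mul_apply, Fin.sum_univ_two,
    Matrix.smul_apply, Matrix.one_apply_eq, Matrix.zero_apply, smul_eq_mul, mul_one, ne_eq,
    Matrix.one_apply_ne, mul_zero, add_zero, Fin.isValue, zero_ne_one, one_ne_zero,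
    not_false_eq_true] at h00 h01 h10 h11
  rw [Matrix.det_fin_two]
  by_cases htr : M 0 0 + M 1 1 = a
  · linear_combination (-1 : k) * h00 + M 0 0 * htr
  · exfalso
    have htr' : M 0 0 + M 1 1 - a ≠ 0 := sub_ne_zero.mpr htr
    have e01 : M 0 1 = 0 := by
      have : M 0 1 * (M 0 0 + M 1 1 - a) = 0 := by linear_combination h01
      exact (mul_eq_zero.mp this).resolve_right htr'
    have e10 : M 1 0 = 0 := by
      have : M 1 0 * (M 0 0 + M 1 1 - a) = 0 := by linear_combination h10
      exact (mul_eq_zero.mp this).resolve_right htr'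
    have e : M 0 0 = M 1 1 := by
      have : (M 0 0 - M 1 1) * (M 0 0 + M 1 1 - a) = 0 := by
        linear_combination h00 - h11
      exact sub_eq_zero.mp ((mul_eq_zero.mp this).resolve_right htr')
    apply hns (M 0 0)
    ext i j
    fin_cases i <;> fin_cases j <;> simp [e01, e10, e]

/-- A non-scalar endomorphism `T` of a plane with `T² - aT + l = 0` has determinant `l`. -/
theorem det_eq_of_quadratic_h701 (hdim : finrank k V = 2) (T : End k V) (a l : k)
    (hrel : T * T - a • T + l • (1 : End k V) = 0)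
    (hns : ∀ s : k, T ≠ s • (1 : End k V)) : LinearMap.det T = l := by
  have hfd : FiniteDimensional k V := FiniteDimensional.of_finrank_pos (by omega)
  let b : Basis (Fin 2) k V := Module.finBasisOfFinrankEq k V hdim
  let φ := LinearMap.toMatrixAlgEquiv b
  have h1 : φ T * φ T - a • φ T + l • (1 : Matrix (Fin 2) (Fin 2) k) = 0 := by
    have := congrArg φ hrel
    simpa using this
  have h2 : ∀ s : k, φ T ≠ s • (1 : Matrix (Fin 2) (Fin 2) k) := by
    intro s hs
    apply hns s
    apply φ.injective
    rw [hs, map_smul, map_one]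
  have h3 := matrix_det_eq_of_quadratic_h701 (φ T) a l h1 h2
  rw [← h3]
  exact (LinearMap.det_toMatrix b T).symm

end LinAlg2

end Fermat.Agent.S41.H701
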