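import Mathlib
import Fermat.Agent.S41.H701.LinAlg2

/-!
# Abstract non-Eisenstein lemma (helper701, S41 piece D2)

A two-dimensional representation `ρ` of a group `Γ` over a field of characteristic `≠ 2`, together
with a "cyclotomic character" `χ : Γ → X` and its reduction `ε : X → kˣ`, such that every element
is a power of a "Frobenius" `τ` with `ρ(τ)² - a ρ(τ) + ε(χ τ) = 0`, and `a = 2` whenever `χ τ = 1`
(the Eisenstein condition at primes `≡ 1 mod M`), has a stable line, provided some `c ∈ Γ` has
`χ(c)² = 1`, `ε(χ c) = -1`.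

No determinant/Weil pairing input: the determinant is recovered from non-scalar Frobenius
elements.
-/

set_option autoImplicit false

open Module

namespace Fermat.Agent.S41.H701

section AbstractNE

variable {k V Γ X : Type*} [Field k] [AddCommGroup V] [Module k V] [Group Γ] [CommGroup X]

/-- scalar multiples of the identity are injective in the scalar (nontrivial module) -/
lemma smul_one_injective_h701 [Nontrivial V] {s t : k}
    (h : s • (1 : End k V) = t • (1 : End k V)) : s = t := by
  obtain ⟨v, hv⟩ := exists_ne (0 : V)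
  have := congrArg (fun f : End k V => f v) h
  simp only [LinearMap.smul_apply, Module.End.one_apply] at this
  have h' : (s - t) • v = 0 := by rw [sub_smul, this, sub_self]
  rcases smul_eq_zero.mp h' with h'' | h''
  · exact sub_eq_zero.mp h''
  · exact absurd h'' hv

theorem exists_stable_line_of_eisenstein_h701
    (h2 : (2 : k) ≠ 0) (hdim : finrank k V = 2)
    (ρ : Γ →* End k V) (χ : Γ →* X) (ε : X →* kˣ)
    (hF : ∀ σ : Γ, ∃ (τ : Γ) (j : ℕ) (a : k),
        ρ σ = ρ τ ^ j ∧ χ σ = χ τ ^ j ∧ (χ σ = 1 → χ τ = 1) ∧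
        ρ τ * ρ τ - a • ρ τ + ((ε (χ τ) : kˣ) : k) • (1 : End k V) = 0 ∧
        (χ τ = 1 → a = 2))
    (c : Γ) (hc2 : χ c * χ c = 1) (hcε : ((ε (χ c) : kˣ) : k) = -1) :
    ∃ L : Submodule k V, L ≠ ⊥ ∧ L ≠ ⊤ ∧ ∀ g : Γ, ∀ v ∈ L, ρ g v ∈ L := by
  classical
  have hfd : FiniteDimensional k V := FiniteDimensional.of_finrank_pos (by omega)
  have hnt : Nontrivial V := Module.nontrivial_of_finrank_pos (R := k) (by omega)
  -- Step 1: elements of the kernel of `χ` act unipotently
  have hunip : ∀ σ : Γ, χ σ = 1 → (ρ σ - 1) * (ρ σ - 1) = 0 := by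
    intro σ hσ
    obtain ⟨τ, j, a, hρ, -, hχ1, hrel, ha⟩ := hF σ
    have hτ := hχ1 hσ
    rw [ha hτ, hτ, map_one, Units.val_one, one_smul, two_smul] at hrel
    have h1 : (ρ τ - 1) * (ρ τ - 1) = 0 := by
      rw [← hrel]; noncomm_ring
    rw [hρ]
    exact sq_zero_pow_sub_one_h701 _ h1 j
  by_cases hA : ∃ σ₀ : Γ, χ σ₀ = 1 ∧ ρ σ₀ ≠ 1
  · -- Case A: a non-trivial unipotent element
    obtain ⟨σ₀, hσ₀, hρ₀⟩ := hA
    refine ⟨LinearMap.ker (ρ σ₀ - 1), ?_, ?_, ?_⟩
    · intro hbot
      rw [LinearMap.ker_eq_bot] at hbot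
      apply hρ₀
      have h0 : ρ σ₀ - 1 = 0 := by
        ext x
        apply hbot
        have := congrArg (fun f : End k V => f x) (hunip σ₀ hσ₀)
        simpa using this
      exact sub_eq_zero.mp h0
    · intro htop
      rw [LinearMap.ker_eq_top] at htop
      exact hρ₀ (sub_eq_zero.mp htop)
    · intro g v hv
      rw [LinearMap.mem_ker, LinearMap.sub_apply, Module.End.one_apply, sub_eq_zero] at hv ⊢
      have hχ1 : χ (g * σ₀ * g⁻¹) = 1 := by
        rw [map_mul, map_mul, hσ₀, mul_one, ← map_mul, mul_inv_cancel, map_one]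
      have hχ2 : χ (g * σ₀ * g⁻¹ * σ₀) = 1 := by rw [map_mul, hχ1, hσ₀, mul_one]
      have hne : ρ (g * σ₀ * g⁻¹) ≠ 1 := by
        intro h
        apply hρ₀
        have : ρ σ₀ = ρ g⁻¹ * ρ (g * σ₀ * g⁻¹) * ρ g := by
          rw [← map_mul, ← map_mul]; congr 1; group
        rw [this, h, mul_one, ← map_mul, inv_mul_cancel, map_one]
      have huv : (ρ (g * σ₀ * g⁻¹) * ρ σ₀ - 1) * (ρ (g * σ₀ * g⁻¹) * ρ σ₀ - 1) = 0 := by
        rw [← map_mul]; exact hunip _ hχ2
      apply ker_le_of_unipotent_pair_h701 hdim (ρ (g * σ₀ * g⁻¹)) (ρ σ₀) (hunip _ hχ1)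
        (hunip _ hσ₀) huv hne hρ₀
      -- `ρ g v` is fixed by `ρ (g σ₀ g⁻¹)`
      have : ρ (g * σ₀ * g⁻¹) (ρ g v) = ρ (g * σ₀ * g⁻¹ * g) v := by
        rw [map_mul _ _ g]; rfl
      rw [this]
      have e : g * σ₀ * g⁻¹ * g = g * σ₀ := by group
      rw [e, map_mul, Module.End.mul_apply, hv]
  · -- Case B: the kernel of `χ` acts trivially, so the image of `ρ` is abelian
    have hB : ∀ σ : Γ, χ σ = 1 → ρ σ = 1 := by
      intro σ hσ
      by_contra h
      exact hA ⟨σ, hσ, h⟩
    have hcomm : ∀ g₁ g₂ : Γ, ρ g₁ * ρ g₂ = ρ g₂ * ρ g₁ := by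
      intro g₁ g₂
      have h1 : χ (g₁ * g₂ * g₁⁻¹ * g₂⁻¹) = 1 := by
        simp only [map_mul, map_inv]
        rw [mul_comm (χ g₁) (χ g₂), mul_assoc (χ g₂), mul_inv_cancel, mul_one, mul_inv_cancel]
      have h2 := hB _ h1
      have h3 : g₁ * g₂ = (g₁ * g₂ * g₁⁻¹ * g₂⁻¹) * (g₂ * g₁) := by group
      rw [← map_mul, ← map_mul, h3, map_mul, h2, one_mul]
    have hcc : ρ c * ρ c = 1 := by
      rw [← map_mul]
      exact hB _ (by rw [map_mul, hc2])
    by_cases hcs : ∃ s : k, ρ c = s • (1 : End k V)
    · -- `ρ c` scalar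
      obtain ⟨s, hs⟩ := hcs
      by_cases hall : ∀ g : Γ, ∃ t : k, ρ g = t • (1 : End k V)
      · -- everything is scalar: any line is stable
        obtain ⟨v, hv⟩ := exists_ne (0 : V)
        refine ⟨Submodule.span k {v}, ?_, ?_, ?_⟩
        · rw [Ne, Submodule.span_singleton_eq_bot]; exact hv
        · intro htop
          have h1 : finrank k (Submodule.span k {v}) = 1 := finrank_span_singleton hv
          rw [htop, finrank_top, hdim] at h1
          omega
        · intro g w hw
          obtain ⟨t, ht⟩ := hall g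
          rw [ht, LinearMap.smul_apply, Module.End.one_apply]
          exact Submodule.smul_mem _ _ hw
      · exfalso
        rw [not_forall] at hall
        obtain ⟨g₀, hg₀⟩ := hall
        rw [not_exists] at hg₀
        -- determinant of non-scalar elements
        have hdet : ∀ g : Γ, (∀ t : k, ρ g ≠ t • (1 : End k V)) →
            LinearMap.det (ρ g) = ((ε (χ g) : kˣ) : k) := by
          intro g hg
          obtain ⟨τ, j, a, hρ, hχ, -, hrel, -⟩ := hF g
          have hτns : ∀ t : k, ρ τ ≠ t • (1 : End k V) := by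
            intro t ht
            apply hg (t ^ j)
            rw [hρ, ht, smul_pow, one_pow]
          have h1 := det_eq_of_quadratic_h701 hdim (ρ τ) a _ hrel hτns
          rw [hρ, map_pow, h1, hχ, map_pow, Units.val_pow_eq_pow_val]
        have hs2 : s * s = 1 := by
          rw [hs, smul_mul_smul_comm, one_mul] at hcc
          have : (s * s) • (1 : End k V) = (1 : k) • (1 : End k V) := by rw [hcc, one_smul]
          exact smul_one_injective_h701 this
        have hs0 : s ≠ 0 := by
          rintro rfl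
          rw [mul_zero] at hs2
          exact zero_ne_one hs2
        have hcg : ρ (c * g₀) = s • ρ g₀ := by
          rw [map_mul, hs, smul_mul_assoc, one_mul]
        have hcgns : ∀ t : k, ρ (c * g₀) ≠ t • (1 : End k V) := by
          intro t ht
          apply hg₀ (s⁻¹ * t)
          rw [hcg] at ht
          rw [mul_smul, ← ht, smul_smul, inv_mul_cancel₀ hs0, one_smul]
        have hd1 := hdet g₀ hg₀
        have hd2 := hdet (c * g₀) hcgns
        rw [hcg, LinearMap.det_smul, hdim, pow_two, hs2, one_mul, hd1, map_mul, map_mul,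
          Units.val_mul, hcε] at hd2
        have hd3 : (2 : k) * ((ε (χ g₀) : kˣ) : k) = 0 := by linear_combination hd2
        rcases mul_eq_zero.mp hd3 with h | h
        · exact h2 h
        · exact (ε (χ g₀)).ne_zero h
    · -- `ρ c` is a non-scalar involution commuting with everything
      rw [not_exists] at hcs
      refine ⟨LinearMap.ker (ρ c - 1), ?_, ?_, ?_⟩
      · intro hbot
        rw [LinearMap.ker_eq_bot] at hbot
        apply hcs (-1)
        have h0 : ρ c + 1 = 0 := by
          ext x
          apply hbot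
          have : (ρ c - 1) * (ρ c + 1) = 0 := by
            have : (ρ c - 1) * (ρ c + 1) = ρ c * ρ c - 1 := by noncomm_ring
            rw [this, hcc, sub_self]
          have := congrArg (fun f : End k V => f x) this
          simpa using this
        rw [neg_smul, one_smul]
        exact eq_neg_of_add_eq_zero_left h0
      · intro htop
        rw [LinearMap.ker_eq_top] at htop
        apply hcs 1
        rw [one_smul]
        exact sub_eq_zero.mp htop
      · intro g v hv
        rw [LinearMap.mem_ker, LinearMap.sub_apply, Module.End.one_apply, sub_eq_zero] at hv ⊢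
        have := congrArg (fun f : End k V => f v) (hcomm c g)
        simp only [Module.End.mul_apply] at this
        rw [this, hv]

end AbstractNE

end Fermat.Agent.S41.H701
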