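import Mathlib
import Fermat.Agent.Lib.Cheb.FrobeniusDivision
import Fermat.Agent.Lib.Frob.Statement
import Fermat.Agent.S55.H414.CycloPow
import Fermat.Agent.S41.H701.FinrankTorsion
import Fermat.Agent.S41.H701.AbstractNE

/-!
# S41, block NE (helper701, piece D3): irreducible `E[p]` is not Eisenstein

`nonEisenstein_of_frobRelation_h701`: for an integral Weierstrass model `W` with `Δ ≠ 0`, an odd
prime `p` with `W[p]` irreducible, a finite set `S` and `M₀ ≥ 1` there is a prime `ℓ ∉ S` of good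
reduction with `ℓ ≡ 1 mod M₀` and `p ∤ ℓ + 1 - a_ℓ(W)`.

Inputs: the Frobenius relation `Lib.Frob.FrobRelation` (hypothesis here; proved by row S52), the
Frobenius division theorem `Lib.Cheb.frobeniusDivision` (Tier 1 of CHEB), Dirichlet's theorem
(Mathlib), `dim E[p] = 2` (piece D1) and the abstract lemma of piece D2.
-/

set_option autoImplicit false

open WeierstrassCurve WeierstrassCurve.Affine WeierstrassCurve.Affine.Point

namespace Fermat.Agent.S41.H701

open Fermat.Agent.Lib.Frob (Qb Pts)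
open Fermat.Agent.S55.H414 (cycloPow zetaBar zetaBar_spec)

/-- `Gal(ℚ̄/ℚ)` -/
abbrev GQ701 : Type := Qb ≃ₐ[ℚ] Qb

section Coord

variable {E : WeierstrassCurve ℚ}

/-- `x`-coordinate with junk value at infinity -/
noncomputable def xCoord_h701 : (E⁄Qb).Point → Qb
  | .zero => 0
  | .some x _ _ => x

/-- `y`-coordinate with junk value at infinity -/
noncomputable def yCoord_h701 : (E⁄Qb).Point → Qb
  | .zero => 0
  | .some _ y _ => y

/-- Two automorphisms agreeing on the coordinates of a point act in the same way on it. -/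
lemma smul_eq_smul_of_coord_h701 (σ τ : GQ701) (P : (E⁄Qb).Point)
    (hx : σ (xCoord_h701 P) = τ (xCoord_h701 P)) (hy : σ (yCoord_h701 P) = τ (yCoord_h701 P)) :
    σ • P = τ • P := by
  cases P with
  | zero => rfl
  | some x y h =>
    simp only [xCoord_h701, yCoord_h701] at hx hy
    rw [algEquiv_smul_def, algEquiv_smul_def]
    simp only [Point.map_some]
    congr 1

end Coord

section Field

variable (W : WeierstrassCurve ℤ) (p : ℕ) (M : ℕ) [NeZero M]

/-- generators of the field `ℚ(E[p], ζ_M)` -/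
def genSet_h701 : Set Qb :=
  {Fermat.Agent.S55.H414.zetaBar M} ∪
    ((fun P : Submodule.torsionBy ℤ (Pts W) p => xCoord_h701 (P : Pts W)) '' Set.univ ∪
     (fun P : Submodule.torsionBy ℤ (Pts W) p => yCoord_h701 (P : Pts W)) '' Set.univ)

/-- the field `ℚ(E[p], ζ_M)` -/
noncomputable def splitField_h701 : IntermediateField ℚ Qb :=
  IntermediateField.adjoin ℚ (genSet_h701 W p M)

lemma zeta_mem_splitField_h701 :
    Fermat.Agent.S55.H414.zetaBar M ∈ splitField_h701 W p M :=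
  IntermediateField.subset_adjoin _ _ (Or.inl rfl)

lemma xCoord_mem_splitField_h701 (P : Submodule.torsionBy ℤ (Pts W) p) :
    xCoord_h701 (P : Pts W) ∈ splitField_h701 W p M :=
  IntermediateField.subset_adjoin _ _ (Or.inr (Or.inl ⟨P, trivial, rfl⟩))

lemma yCoord_mem_splitField_h701 (P : Submodule.torsionBy ℤ (Pts W) p) :
    yCoord_h701 (P : Pts W) ∈ splitField_h701 W p M :=
  IntermediateField.subset_adjoin _ _ (Or.inr (Or.inr ⟨P, trivial, rfl⟩))

lemma finiteDimensional_splitField_h701 (hfin : Finite (Submodule.torsionBy ℤ (Pts W) p)) :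
    FiniteDimensional ℚ (splitField_h701 W p M) := by
  have hS : (genSet_h701 W p M).Finite := by
    unfold genSet_h701
    refine (Set.finite_singleton _).union ((Set.finite_univ.image _).union (Set.finite_univ.image _))
  have : Finite (genSet_h701 W p M) := hS.to_subtype
  have : Algebra.IsAlgebraic ℚ Qb := AlgebraicClosure.isAlgebraic ℚ
  exact IntermediateField.finiteDimensional_adjoin
    (fun x _ => (Algebra.IsAlgebraic.isAlgebraic x).isIntegral)

/-- agreeing on the field ⇒ same action on `E[p]` -/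
lemma smul_eq_of_eqOn_splitField_h701 (σ τ : GQ701)
    (h : ∀ x ∈ splitField_h701 W p M, σ x = τ x) (P : Submodule.torsionBy ℤ (Pts W) p) :
    σ • P = τ • P := by
  apply Subtype.ext
  exact smul_eq_smul_of_coord_h701 σ τ (P : Pts W) (h _ (xCoord_mem_splitField_h701 W p M P))
    (h _ (yCoord_mem_splitField_h701 W p M P))

/-- agreeing on the field ⇒ same cyclotomic character -/
lemma cycloPow_eq_of_eqOn_splitField_h701 (σ τ : GQ701)
    (h : ∀ x ∈ splitField_h701 W p M, σ x = τ x) :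
    Fermat.Agent.S55.H414.cycloPow M σ = Fermat.Agent.S55.H414.cycloPow M τ := by
  rw [Fermat.Agent.S55.H414.cycloPow_eq_iff, h _ (zeta_mem_splitField_h701 W p M)]
  exact Fermat.Agent.S55.H414.cycloPow_spec M τ

end Field

section Val

variable {A : ValuationSubring Qb}

/-- A natural number prime to `ℓ` is a unit at a place over `ℓ`. -/
theorem val_natCast_eq_one_h701 {ℓ M : ℕ} (hA : A.LiesOverPrime ℓ) (hcop : Nat.Coprime ℓ M) :
    A.valuation (M : Qb) = 1 := by
  have hq' : A.valuation (ℓ : Qb) < 1 := (A.mem_nonunits_iff).mp hA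
  have hcop' : IsCoprime (ℓ : ℤ) (M : ℤ) := by
    rw [Int.isCoprime_iff_gcd_eq_one, Int.gcd_natCast_natCast]
    exact hcop
  obtain ⟨u, w, huw⟩ := hcop'
  have h1 : (u : Qb) * (ℓ : Qb) + (w : Qb) * (M : Qb) = 1 := by
    exact_mod_cast congrArg (Int.cast : ℤ → Qb) huw
  have hsmall : A.valuation ((u : Qb) * (ℓ : Qb)) < 1 := by
    rw [map_mul]
    exact (mul_le_of_le_one_left' (Fermat.Agent.S55.Bridge.val_intCast_le_one u)).trans_lt hq'
  have hwn : A.valuation ((w : Qb) * (M : Qb)) = 1 := by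
    have : (w : Qb) * (M : Qb) = 1 + -((u : Qb) * (ℓ : Qb)) := by linear_combination h1
    rw [this, (A.valuation).map_add_eq_of_lt_left
      (by rw [Valuation.map_neg, map_one]; exact hsmall), map_one]
  rw [map_mul] at hwn
  have hp1 : A.valuation (M : Qb) ≤ 1 := by
    have := Fermat.Agent.S55.Bridge.val_intCast_le_one (A := A) (M : ℤ)
    rwa [Int.cast_natCast] at this
  refine le_antisymm hp1 ?_
  calc (1 : A.ValueGroup)
      = A.valuation (w : Qb) * A.valuation (M : Qb) := hwn.symm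
    _ ≤ 1 * A.valuation (M : Qb) :=
        mul_le_mul_left (Fermat.Agent.S55.Bridge.val_intCast_le_one w) _
    _ = A.valuation (M : Qb) := one_mul _

/-- The cyclotomic character of a Frobenius element at `ℓ ∤ M` is `ℓ mod M`. -/
theorem coe_cycloPow_frob_h701 {ℓ M : ℕ} [NeZero M] {σ : GQ701} (hA : A.LiesOverPrime ℓ)
    (hσ : A.IsFrobeniusAt σ ℓ) (hcop : Nat.Coprime ℓ M) :
    ((cycloPow M σ : (ZMod M)ˣ) : ZMod M) = (ℓ : ZMod M) := by
  have hNv := val_natCast_eq_one_h701 hA hcop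
  have hζ : σ (zetaBar M) = zetaBar M ^ ℓ :=
    Fermat.Agent.S55.H414.IsFrobeniusAt_apply_root hσ (NeZero.ne _) hNv (zetaBar_spec M).pow_eq_one
  exact Fermat.Agent.S55.H414.coe_cycloPow_of_apply_eq_pow M σ ℓ hζ

end Val

/-- There is `c ∈ Gal(ℚ̄/ℚ)` with `χ_M(c) = -1` (a Frobenius at a prime `≡ -1 mod M`). -/
theorem exists_cycloPow_eq_neg_one_h701 (M : ℕ) [NeZero M] :
    ∃ c : GQ701, cycloPow M c = -1 := by
  have hu : IsUnit (-1 : ZMod M) := isUnit_one.neg
  obtain ⟨q, -, hq, hqM⟩ := Nat.forall_exists_prime_gt_and_eq_mod hu 0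
  obtain ⟨A, σ, hA, hσ⟩ := Fermat.Agent.S54.exists_frobenius q hq
  have hcop : Nat.Coprime q M := by
    rw [← ZMod.isUnit_iff_coprime, hqM]
    exact hu
  refine ⟨σ, ?_⟩
  apply Units.ext
  rw [coe_cycloPow_frob_h701 hA hσ hcop, hqM]
  simp

section Main

/-- zsmul on the torsion module versus the Galois action, coordinates -/
theorem coe_galois_smul_torsion_h701 (W : WeierstrassCurve ℤ) (n : ℕ) (σ : GQ701)
    (P : Submodule.torsionBy ℤ (Pts W) n) :
    ((σ • P : Submodule.torsionBy ℤ (Pts W) n) : Pts W) = σ • (P : Pts W) := rfl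

/-- The Frobenius relation on `E[p]` as an identity of `𝔽_p`-endomorphisms. -/
theorem frob_relation_end_h701 (hFrob : Fermat.Agent.Lib.Frob.FrobRelation)
    (W : WeierstrassCurve ℤ) (p : ℕ) [Fact p.Prime] (ℓ : ℕ) (hℓ : ℓ.Prime) (h5 : 5 ≤ ℓ)
    (hgood : W.IsGoodPrimeFor ℓ) (hℓp : ℓ ≠ p) (A : ValuationSubring Qb) (τ : GQ701)
    (hA : A.LiesOverPrime ℓ) (hτ : A.IsFrobeniusAt τ ℓ) :
    galoisRepModuleEnd ℚ (W.map (Int.castRingHom ℚ)) p τ *
        galoisRepModuleEnd ℚ (W.map (Int.castRingHom ℚ)) p τ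
      - ((W.apOfModel ℓ : ℤ) : ZMod p) • galoisRepModuleEnd ℚ (W.map (Int.castRingHom ℚ)) p τ
      + (ℓ : ZMod p) • (1 : Module.End (ZMod p) (Submodule.torsionBy ℤ (Pts W) p)) = 0 := by
  have hp : p.Prime := Fact.out
  have hℓp' : ¬ ℓ ∣ p := by
    intro h
    exact hℓp ((Nat.prime_dvd_prime_iff_eq hℓ hp).mp h)
  apply LinearMap.ext
  intro P
  simp only [LinearMap.add_apply, LinearMap.sub_apply, Module.End.mul_apply,
    LinearMap.smul_apply, galoisRepModuleEnd_apply, Module.End.one_apply, LinearMap.zero_apply]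
  rw [Int.cast_smul_eq_zsmul, Nat.cast_smul_eq_nsmul, ← natCast_zsmul]
  apply Subtype.ext
  simp only [Submodule.coe_add, Submodule.coe_sub, Submodule.coe_smul_of_tower,
    coe_galois_smul_torsion_h701, ZeroMemClass.coe_zero]
  have hP : p • (P : Pts W) = 0 := by
    have := P.2
    rw [Submodule.mem_torsionBy_iff] at this
    rw [← this]
    exact (natCast_zsmul (P : Pts W) p).symm
  exact hFrob W ℓ hℓ h5 hgood A τ hA hτ p hp.pos hℓp' (P : Pts W) hP

/-- **Block NE, conditional on the Frobenius relation.**  If `W[p]` is irreducible (`p` odd), then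
for every finite set `S` and every `M₀ ≥ 1` there is a prime `ℓ ∉ S` of good reduction,
`ℓ ≡ 1 mod M₀`, with `p ∤ ℓ + 1 - a_ℓ(W)`. -/
theorem nonEisenstein_of_frobRelation_h701 (hFrob : Fermat.Agent.Lib.Frob.FrobRelation)
    (W : WeierstrassCurve ℤ) (hΔ : W.Δ ≠ 0) (p : ℕ) (hp : p.Prime) (hp2 : p ≠ 2)
    (hirr : W.ModRepIsIrreducible p) (S : Finset ℕ) (M₀ : ℕ) (hM₀ : 0 < M₀) :
    ∃ ℓ : ℕ, ℓ.Prime ∧ ℓ ∉ S ∧ W.IsGoodPrimeFor ℓ ∧ ℓ ≡ 1 [MOD M₀] ∧
      ¬ (p : ℤ) ∣ ((ℓ : ℤ) + 1 - W.apOfModel ℓ) := by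
  classical
  by_contra hcon
  push Not at hcon
  have : Fact p.Prime := ⟨hp⟩
  obtain ⟨M, hMdef⟩ : ∃ M : ℕ, M = M₀ * p := ⟨_, rfl⟩
  have hMpos : 0 < M := by rw [hMdef]; exact Nat.mul_pos hM₀ hp.pos
  have : NeZero M := ⟨hMpos.ne'⟩
  have hpM : p ∣ M := by rw [hMdef]; exact Dvd.intro_left _ rfl
  have hM₀M : M₀ ∣ M := by rw [hMdef]; exact Dvd.intro _ rfl
  -- the elliptic instance
  have hΔQ : ((W.map (Int.castRingHom ℚ))⁄Qb).Δ ≠ 0 := by
    simp only [WeierstrassCurve.baseChange, WeierstrassCurve.map_Δ]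
    simpa using hΔ
  have : ((W.map (Int.castRingHom ℚ))⁄Qb).IsElliptic := ⟨isUnit_iff_ne_zero.mpr hΔQ⟩
  have hdim : Module.finrank (ZMod p) (Submodule.torsionBy ℤ (Pts W) p) = 2 :=
    finrank_torsion_eq_two_h701 (K := Qb) (W.map (Int.castRingHom ℚ)) p
  have hfin : Finite (Submodule.torsionBy ℤ (Pts W) p) :=
    finite_torsion_prelude_h701 (K := Qb) (W.map (Int.castRingHom ℚ)) p hp.one_le
  have hfd := finiteDimensional_splitField_h701 W p M hfin
  have h2 : (2 : ZMod p) ≠ 0 := by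
    intro h
    have h' : ((2 : ℕ) : ZMod p) = 0 := by exact_mod_cast h
    rw [ZMod.natCast_eq_zero_iff] at h'
    exact hp2 ((Nat.prime_dvd_prime_iff_eq hp Nat.prime_two).mp h')
  -- the Frobenius-power hypothesis
  have hF : ∀ σ : GQ701, ∃ (τ : GQ701) (j : ℕ) (a : ZMod p),
      galoisRepModuleEnd ℚ (W.map (Int.castRingHom ℚ)) p σ
          = galoisRepModuleEnd ℚ (W.map (Int.castRingHom ℚ)) p τ ^ j ∧
        cycloPow M σ = cycloPow M τ ^ j ∧ (cycloPow M σ = 1 → cycloPow M τ = 1) ∧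
        galoisRepModuleEnd ℚ (W.map (Int.castRingHom ℚ)) p τ *
            galoisRepModuleEnd ℚ (W.map (Int.castRingHom ℚ)) p τ
          - a • galoisRepModuleEnd ℚ (W.map (Int.castRingHom ℚ)) p τ
          + ((ZMod.unitsMap hpM (cycloPow M τ) : (ZMod p)ˣ) : ZMod p) •
              (1 : Module.End (ZMod p) (Submodule.torsionBy ℤ (Pts W) p)) = 0 ∧
        (cycloPow M τ = 1 → a = 2) := by
    intro σ
    obtain ⟨ℓ, A, τ, k, j, hℓ, hℓS, hA, hτ, -, hτσ, hστ⟩ :=
      Fermat.Agent.Lib.Cheb.frobeniusDivision (splitField_h701 W p M) hfd σ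
        (S ∪ {2, 3, p} ∪ M.primeFactors ∪ W.Δ.natAbs.primeFactors)
    simp only [Finset.mem_union, Finset.mem_insert, Finset.mem_singleton, not_or] at hℓS
    obtain ⟨⟨⟨hℓS, hℓ2, hℓ3, hℓp⟩, hℓM⟩, hℓΔ⟩ := hℓS
    have h5 : 5 ≤ ℓ := by
      have h2' := hℓ.two_le
      by_contra hlt
      push Not at hlt
      interval_cases ℓ
      · exact hℓ2 rfl
      · exact hℓ3 rfl
      · exact absurd hℓ (by decide)
    have hcop : Nat.Coprime ℓ M := by
      rw [Nat.Prime.coprime_iff_not_dvd hℓ]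
      intro h
      exact hℓM (Nat.mem_primeFactors.mpr ⟨hℓ, h, hMpos.ne'⟩)
    have hgood : W.IsGoodPrimeFor ℓ := by
      intro h
      apply hℓΔ
      rw [Nat.mem_primeFactors]
      refine ⟨hℓ, ?_, by simpa using hΔ⟩
      exact Int.natCast_dvd.mp h
    have hχτ : ((cycloPow M τ : (ZMod M)ˣ) : ZMod M) = (ℓ : ZMod M) :=
      coe_cycloPow_frob_h701 hA hτ hcop
    have hε : ((ZMod.unitsMap hpM (cycloPow M τ) : (ZMod p)ˣ) : ZMod p) = (ℓ : ZMod p) := by
      rw [ZMod.unitsMap_def, Units.coe_map, MonoidHom.coe_coe, hχτ, map_natCast]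
    refine ⟨τ, j, ((W.apOfModel ℓ : ℤ) : ZMod p), ?_, ?_, ?_, ?_, ?_⟩
    · rw [← map_pow]
      apply LinearMap.ext
      intro P
      rw [galoisRepModuleEnd_apply, galoisRepModuleEnd_apply]
      exact (smul_eq_of_eqOn_splitField_h701 W p M (τ ^ j) σ hστ P).symm
    · rw [← map_pow]
      exact (cycloPow_eq_of_eqOn_splitField_h701 W p M (τ ^ j) σ hστ).symm
    · intro hσ1
      rw [cycloPow_eq_of_eqOn_splitField_h701 W p M τ (σ ^ k) hτσ, map_pow, hσ1, one_pow]
    · rw [hε]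
      exact frob_relation_end_h701 hFrob W p ℓ hℓ h5 hgood hℓp A τ hA hτ
    · intro hτ1
      rw [hτ1, Units.val_one] at hχτ
      have hℓ1 : ℓ ≡ 1 [MOD M] := by
        rw [← ZMod.natCast_eq_natCast_iff, ← hχτ, Nat.cast_one]
      have hdvd := hcon ℓ hℓ hℓS hgood (hℓ1.of_dvd hM₀M)
      have hℓ1p : (ℓ : ZMod p) = 1 := by
        have := (ZMod.natCast_eq_natCast_iff ℓ 1 p).mpr (hℓ1.of_dvd hpM)
        simpa using this
      have h0 : (((ℓ : ℤ) + 1 - W.apOfModel ℓ : ℤ) : ZMod p) = 0 :=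
        (ZMod.intCast_zmod_eq_zero_iff_dvd _ p).mpr hdvd
      push_cast at h0
      rw [hℓ1p] at h0
      have : ((W.apOfModel ℓ : ℤ) : ZMod p) = 1 + 1 := (sub_eq_zero.mp h0).symm
      rw [this]; norm_num
  obtain ⟨c, hc⟩ := exists_cycloPow_eq_neg_one_h701 M
  have hc2 : cycloPow M c * cycloPow M c = 1 := by rw [hc]; simp
  have hcε : ((ZMod.unitsMap hpM (cycloPow M c) : (ZMod p)ˣ) : ZMod p) = -1 := by
    rw [hc, ZMod.unitsMap_def, Units.coe_map, MonoidHom.coe_coe, Units.val_neg, Units.val_one,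
      map_neg, map_one]
  obtain ⟨L, hL0, hL1, hLstab⟩ := exists_stable_line_of_eisenstein_h701 h2 hdim
    (galoisRepModuleEnd ℚ (W.map (Int.castRingHom ℚ)) p) (cycloPow M) (ZMod.unitsMap hpM) hF c
    hc2 hcε
  rcases hirr.2 L (fun σ x hx => hLstab σ x hx) with h | h
  · exact hL0 h
  · exact hL1 h

end Main

end Fermat.Agent.S41.H701
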