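import Mathlib
import Fermat.Prelude.Def_GaloisRep_ComplexConjugation
import Fermat.Agent.S41.H701.NonEisenstein

/-!
# S41, block NE' (helper701): non-Eisenstein primes with a Kummer condition

Needed by the CSP-free routes for Ihara's lemma (helper744 "IH'", helper161 "IK"):
for `W[p]` irreducible (`p` odd), a prime `q`, a finite set `S` and `M₀ ≥ 1` there is a good prime
`ℓ ∉ S`, `ℓ ≡ 1 mod M₀ p`, with `p ∤ ℓ + 1 - a_ℓ(W)` and `q ^ ((ℓ - 1) / p) ≢ 1 mod ℓ`
(equivalently: `q` is not a `p`-th power mod `ℓ`).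

Contents:
* `unipotent_of_pair_h701` : the `2 × 2` trace trick;
* `exists_stable_line_of_unipotent_h701` : the abstract stable-line lemma with unipotence of the
  kernel of the cyclotomic character as a hypothesis;
* `exists_real_root_h701`, `exists_moving_h701` (K1), `frob_fix_root_h701` (K2);
* `exists_frob_package_h701` : Frobenius division on `ℚ(E[p], ζ_M, β)`;
* `nonEisenstein_kummer_of_frobRelation_h701` : the theorem, conditional on `Lib.Frob.FrobRelation`.
-/

set_option autoImplicit false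

open WeierstrassCurve WeierstrassCurve.Affine WeierstrassCurve.Affine.Point
open Module

namespace Fermat.Agent.S41.H701

open Fermat.Agent.Lib.Frob (Qb Pts)
open Fermat.Agent.S55.H414 (cycloPow zetaBar zetaBar_spec)

section TraceTrick

variable {k : Type*} [Field k]

/-- a `2 × 2` matrix `U` with `(U - 1)² = 0` has trace `2` and determinant `1` -/
lemma matrix_trace_det_of_unipotent_h701 (U : Matrix (Fin 2) (Fin 2) k)
    (hU : (U - 1) * (U - 1) = 0) : U.trace = 2 ∧ U.det = 1 := by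
  have h00 := congrFun (congrFun hU 0) 0
  have h01 := congrFun (congrFun hU 0) 1
  have h10 := congrFun (congrFun hU 1) 0
  have h11 := congrFun (congrFun hU 1) 1
  simp only [Matrix.sub_apply, Matrix.mul_apply, Fin.sum_univ_two,
    Matrix.one_apply_eq, Matrix.zero_apply, ne_eq,
    Matrix.one_apply_ne, Fin.isValue, zero_ne_one, one_ne_zero,
    not_false_eq_true, sub_zero] at h00 h01 h10 h11
  rw [Matrix.trace_fin_two, Matrix.det_fin_two]
  by_cases htr : U 0 0 + U 1 1 = 2
  · refine ⟨htr, ?_⟩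
    linear_combination (-1 : k) * h00 + U 0 0 * htr
  · exfalso
    have htr' : U 0 0 + U 1 1 - 2 ≠ 0 := sub_ne_zero.mpr htr
    have e01 : U 0 1 = 0 := by
      have : U 0 1 * (U 0 0 + U 1 1 - 2) = 0 := by linear_combination h01
      exact (mul_eq_zero.mp this).resolve_right htr'
    have e00 : U 0 0 - 1 = 0 := by
      have : (U 0 0 - 1) * (U 0 0 - 1) = 0 := by
        rw [e01] at h00; linear_combination h00
      exact mul_self_eq_zero.mp this
    have e11 : U 1 1 - 1 = 0 := by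
      have : (U 1 1 - 1) * (U 1 1 - 1) = 0 := by
        rw [e01] at h11; linear_combination h11
      exact mul_self_eq_zero.mp this
    apply htr
    linear_combination e00 + e11

/-- Cayley–Hamilton for `2 × 2` matrices -/
lemma matrix_cayley_hamilton_two_h701 (H : Matrix (Fin 2) (Fin 2) k) :
    H * H - H.trace • H + H.det • (1 : Matrix (Fin 2) (Fin 2) k) = 0 := by
  rw [Matrix.trace_fin_two, Matrix.det_fin_two]
  ext i j
  fin_cases i <;> fin_cases j <;>
    simp [Matrix.mul_apply, Fin.sum_univ_two] <;> ring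

/-- **Trace trick**, matrices: if `G`, `G H`, `G² H` are unipotent then so is `H`. -/
lemma matrix_unipotent_of_pair_h701 (G H : Matrix (Fin 2) (Fin 2) k)
    (hG : (G - 1) * (G - 1) = 0) (h1 : (G * H - 1) * (G * H - 1) = 0)
    (h2 : (G * G * H - 1) * (G * G * H - 1) = 0) : (H - 1) * (H - 1) = 0 := by
  obtain ⟨-, dG⟩ := matrix_trace_det_of_unipotent_h701 G hG
  obtain ⟨t1, d1⟩ := matrix_trace_det_of_unipotent_h701 (G * H) h1
  obtain ⟨t2, -⟩ := matrix_trace_det_of_unipotent_h701 (G * G * H) h2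
  have hGG : G * G = (2 : k) • G - 1 := by
    have : (G - 1) * (G - 1) = G * G - (2 : k) • G + 1 := by
      rw [two_smul]; noncomm_ring
    rw [this] at hG
    have h3 := sub_eq_zero.mp (show G * G - ((2 : k) • G - 1) = 0 by rw [← hG]; abel)
    exact h3
  have dH : H.det = 1 := by
    rw [Matrix.det_mul, dG, one_mul] at d1
    exact d1
  have tH : H.trace = 2 := by
    rw [hGG, Matrix.sub_mul, Matrix.one_mul, Matrix.smul_mul, Matrix.trace_sub,
      Matrix.trace_smul, t1, smul_eq_mul] at t2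
    linear_combination (-1 : k) * t2
  have hCH := matrix_cayley_hamilton_two_h701 H
  rw [tH, dH, one_smul] at hCH
  have : (H - 1) * (H - 1) = H * H - (2 : k) • H + 1 := by
    rw [two_smul]; noncomm_ring
  rw [this, hCH]

variable {V : Type*} [AddCommGroup V] [Module k V]

/-- **Trace trick**: in dimension `2`, if `g`, `g h`, `g² h` are unipotent then so is `h`. -/
theorem unipotent_of_pair_h701 (hdim : finrank k V = 2) (g h : End k V)
    (hg : (g - 1) * (g - 1) = 0) (h1 : (g * h - 1) * (g * h - 1) = 0)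
    (h2 : (g * g * h - 1) * (g * g * h - 1) = 0) : (h - 1) * (h - 1) = 0 := by
  have hfd : FiniteDimensional k V := FiniteDimensional.of_finrank_pos (by omega)
  let b : Basis (Fin 2) k V := Module.finBasisOfFinrankEq k V hdim
  let φ := LinearMap.toMatrixAlgEquiv b
  apply φ.injective
  rw [_root_.map_zero, map_mul, map_sub, map_one]
  apply matrix_unipotent_of_pair_h701 (φ g) (φ h)
  · have := congrArg φ hg
    simpa using this
  · have := congrArg φ h1
    simpa using this
  · have := congrArg φ h2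
    simpa using this

end TraceTrick

section AbstractNE2

variable {k V Γ X : Type*} [Field k] [AddCommGroup V] [Module k V] [Group Γ] [CommGroup X]

/-- Variant of `exists_stable_line_of_eisenstein_h701` where unipotence of the kernel of `χ` is a
hypothesis (and the Frobenius relation is only used for determinants). -/
theorem exists_stable_line_of_unipotent_h701
    (h2 : (2 : k) ≠ 0) (hdim : finrank k V = 2)
    (ρ : Γ →* End k V) (χ : Γ →* X) (ε : X →* kˣ)
    (hunip : ∀ σ : Γ, χ σ = 1 → (ρ σ - 1) * (ρ σ - 1) = 0)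
    (hF : ∀ σ : Γ, ∃ (τ : Γ) (j : ℕ) (a : k),
        ρ σ = ρ τ ^ j ∧ χ σ = χ τ ^ j ∧
        ρ τ * ρ τ - a • ρ τ + ((ε (χ τ) : kˣ) : k) • (1 : End k V) = 0)
    (c : Γ) (hc2 : χ c * χ c = 1) (hcε : ((ε (χ c) : kˣ) : k) = -1) :
    ∃ L : Submodule k V, L ≠ ⊥ ∧ L ≠ ⊤ ∧ ∀ g : Γ, ∀ v ∈ L, ρ g v ∈ L := by
  classical
  have hfd : FiniteDimensional k V := FiniteDimensional.of_finrank_pos (by omega)
  have hnt : Nontrivial V := Module.nontrivial_of_finrank_pos (R := k) (by omega)
  by_cases hA : ∃ σ₀ : Γ, χ σ₀ = 1 ∧ ρ σ₀ ≠ 1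
  · -- Case A: a non-trivial unipotent element
    obtain ⟨σ₀, hσ₀, hρ₀⟩ := hA
    refine ⟨LinearMap.ker (ρ σ₀ - 1), ?_, ?_, ?_⟩
    · intro hbot
      rw [LinearMap.ker_eq_bot] at hbot
      apply hρ₀
      have h0 : ρ σ₀ - 1 = 0 := by
        ext x
        apply hbot
        have := congrArg (fun f : End k V => f x) (hunip σ₀ hσ₀)
        simpa using this
      exact sub_eq_zero.mp h0
    · intro htop
      rw [LinearMap.ker_eq_top] at htop
      exact hρ₀ (sub_eq_zero.mp htop)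
    · intro g v hv
      rw [LinearMap.mem_ker, LinearMap.sub_apply, Module.End.one_apply, sub_eq_zero] at hv ⊢
      have hχ1 : χ (g * σ₀ * g⁻¹) = 1 := by
        rw [map_mul, map_mul, hσ₀, mul_one, ← map_mul, mul_inv_cancel, map_one]
      have hχ2 : χ (g * σ₀ * g⁻¹ * σ₀) = 1 := by rw [map_mul, hχ1, hσ₀, mul_one]
      have hne : ρ (g * σ₀ * g⁻¹) ≠ 1 := by
        intro h
        apply hρ₀
        have : ρ σ₀ = ρ g⁻¹ * ρ (g * σ₀ * g⁻¹) * ρ g := by
          rw [← map_mul, ← map_mul]; congr 1; group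
        rw [this, h, mul_one, ← map_mul, inv_mul_cancel, map_one]
      have huv : (ρ (g * σ₀ * g⁻¹) * ρ σ₀ - 1) * (ρ (g * σ₀ * g⁻¹) * ρ σ₀ - 1) = 0 := by
        rw [← map_mul]; exact hunip _ hχ2
      apply ker_le_of_unipotent_pair_h701 hdim (ρ (g * σ₀ * g⁻¹)) (ρ σ₀) (hunip _ hχ1)
        (hunip _ hσ₀) huv hne hρ₀
      -- `ρ g v` is fixed by `ρ (g σ₀ g⁻¹)`
      have : ρ (g * σ₀ * g⁻¹) (ρ g v) = ρ (g * σ₀ * g⁻¹ * g) v := by
        rw [map_mul _ _ g]; rfl
      rw [this]
      have e : g * σ₀ * g⁻¹ * g = g * σ₀ := by group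
      rw [e, map_mul, Module.End.mul_apply, hv]
  · -- Case B: the kernel of `χ` acts trivially, so the image of `ρ` is abelian
    have hB : ∀ σ : Γ, χ σ = 1 → ρ σ = 1 := by
      intro σ hσ
      by_contra h
      exact hA ⟨σ, hσ, h⟩
    have hcomm : ∀ g₁ g₂ : Γ, ρ g₁ * ρ g₂ = ρ g₂ * ρ g₁ := by
      intro g₁ g₂
      have h1 : χ (g₁ * g₂ * g₁⁻¹ * g₂⁻¹) = 1 := by
        simp only [map_mul, map_inv]
        rw [mul_comm (χ g₁) (χ g₂), mul_assoc (χ g₂), mul_inv_cancel, mul_one, mul_inv_cancel]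
      have h2 := hB _ h1
      have h3 : g₁ * g₂ = (g₁ * g₂ * g₁⁻¹ * g₂⁻¹) * (g₂ * g₁) := by group
      rw [← map_mul, ← map_mul, h3, map_mul, h2, one_mul]
    have hcc : ρ c * ρ c = 1 := by
      rw [← map_mul]
      exact hB _ (by rw [map_mul, hc2])
    by_cases hcs : ∃ s : k, ρ c = s • (1 : End k V)
    · -- `ρ c` scalar
      obtain ⟨s, hs⟩ := hcs
      by_cases hall : ∀ g : Γ, ∃ t : k, ρ g = t • (1 : End k V)
      · -- everything is scalar: any line is stable
        obtain ⟨v, hv⟩ := exists_ne (0 : V)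
        refine ⟨Submodule.span k {v}, ?_, ?_, ?_⟩
        · rw [Ne, Submodule.span_singleton_eq_bot]; exact hv
        · intro htop
          have h1 : finrank k (Submodule.span k {v}) = 1 := finrank_span_singleton hv
          rw [htop, finrank_top, hdim] at h1
          omega
        · intro g w hw
          obtain ⟨t, ht⟩ := hall g
          rw [ht, LinearMap.smul_apply, Module.End.one_apply]
          exact Submodule.smul_mem _ _ hw
      · exfalso
        rw [not_forall] at hall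
        obtain ⟨g₀, hg₀⟩ := hall
        rw [not_exists] at hg₀
        -- determinant of non-scalar elements
        have hdet : ∀ g : Γ, (∀ t : k, ρ g ≠ t • (1 : End k V)) →
            LinearMap.det (ρ g) = ((ε (χ g) : kˣ) : k) := by
          intro g hg
          obtain ⟨τ, j, a, hρ, hχ, hrel⟩ := hF g
          have hτns : ∀ t : k, ρ τ ≠ t • (1 : End k V) := by
            intro t ht
            apply hg (t ^ j)
            rw [hρ, ht, smul_pow, one_pow]
          have h1 := det_eq_of_quadratic_h701 hdim (ρ τ) a _ hrel hτns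
          rw [hρ, map_pow, h1, hχ, map_pow, Units.val_pow_eq_pow_val]
        have hs2 : s * s = 1 := by
          rw [hs, smul_mul_smul_comm, one_mul] at hcc
          have : (s * s) • (1 : End k V) = (1 : k) • (1 : End k V) := by rw [hcc, one_smul]
          exact smul_one_injective_h701 this
        have hs0 : s ≠ 0 := by
          rintro rfl
          rw [mul_zero] at hs2
          exact zero_ne_one hs2
        have hcg : ρ (c * g₀) = s • ρ g₀ := by
          rw [map_mul, hs, smul_mul_assoc, one_mul]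
        have hcgns : ∀ t : k, ρ (c * g₀) ≠ t • (1 : End k V) := by
          intro t ht
          apply hg₀ (s⁻¹ * t)
          rw [hcg] at ht
          rw [mul_smul, ← ht, smul_smul, inv_mul_cancel₀ hs0, one_smul]
        have hd1 := hdet g₀ hg₀
        have hd2 := hdet (c * g₀) hcgns
        rw [hcg, LinearMap.det_smul, hdim, pow_two, hs2, one_mul, hd1, map_mul, map_mul,
          Units.val_mul, hcε] at hd2
        have hd3 : (2 : k) * ((ε (χ g₀) : kˣ) : k) = 0 := by linear_combination hd2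
        rcases mul_eq_zero.mp hd3 with h | h
        · exact h2 h
        · exact (ε (χ g₀)).ne_zero h
    · -- `ρ c` is a non-scalar involution commuting with everything
      rw [not_exists] at hcs
      refine ⟨LinearMap.ker (ρ c - 1), ?_, ?_, ?_⟩
      · intro hbot
        rw [LinearMap.ker_eq_bot] at hbot
        apply hcs (-1)
        have h0 : ρ c + 1 = 0 := by
          ext x
          apply hbot
          have : (ρ c - 1) * (ρ c + 1) = 0 := by
            have : (ρ c - 1) * (ρ c + 1) = ρ c * ρ c - 1 := by noncomm_ring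
            rw [this, hcc, sub_self]
          have := congrArg (fun f : End k V => f x) this
          simpa using this
        rw [neg_smul, one_smul]
        exact eq_neg_of_add_eq_zero_left h0
      · intro htop
        rw [LinearMap.ker_eq_top] at htop
        apply hcs 1
        rw [one_smul]
        exact sub_eq_zero.mp htop
      · intro g v hv
        rw [LinearMap.mem_ker, LinearMap.sub_apply, Module.End.one_apply, sub_eq_zero] at hv ⊢
        have := congrArg (fun f : End k V => f v) (hcomm c g)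
        simp only [Module.End.mul_apply] at this
        rw [this, hv]

end AbstractNE2

section KummerRoot

/-- a root of `X ^ p - q` in `ℚ̄` fixed by complex conjugation (the real root) -/
theorem exists_real_root_h701 (p q : ℕ) (hp : p ≠ 0) :
    ∃ β : Qb, β ^ p = q ∧ complexConjugation β = β := by
  classical
  -- the real root in `ℂ`
  set r : ℝ := (q : ℝ) ^ ((p : ℝ)⁻¹) with hr
  have hrp : r ^ p = q := by
    rw [hr, ← Real.rpow_natCast, ← Real.rpow_mul (Nat.cast_nonneg q),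
      inv_mul_cancel₀ (Nat.cast_ne_zero.mpr hp), Real.rpow_one]
  -- the polynomial over `ℚ̄`
  let f : Polynomial Qb := Polynomial.X ^ p - Polynomial.C (q : Qb)
  have hf0 : f ≠ 0 := Polynomial.X_pow_sub_C_ne_zero (Nat.pos_of_ne_zero hp) _
  have hsplit : f.Splits := IsAlgClosed.splits f
  have hmap : f.map complexEmbedding.toRingHom
      = Polynomial.X ^ p - Polynomial.C (q : ℂ) := by
    simp [f]
  have hroot : (r : ℂ) ∈ (f.map complexEmbedding.toRingHom).roots := by
    rw [hmap, Polynomial.mem_roots (Polynomial.X_pow_sub_C_ne_zero (Nat.pos_of_ne_zero hp) _)]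
    simp only [Polynomial.IsRoot.def, Polynomial.eval_sub, Polynomial.eval_pow,
      Polynomial.eval_X, Polynomial.eval_C]
    rw [sub_eq_zero]
    exact_mod_cast hrp
  rw [hsplit.roots_map] at hroot
  obtain ⟨β, hβ, hβr⟩ := Multiset.mem_map.mp hroot
  rw [Polynomial.mem_roots hf0] at hβ
  simp only [f, Polynomial.IsRoot.def, Polynomial.eval_sub, Polynomial.eval_pow,
    Polynomial.eval_X, Polynomial.eval_C, sub_eq_zero] at hβ
  refine ⟨β, hβ, ?_⟩
  apply complexEmbedding.toRingHom.injective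
  show complexEmbedding (complexConjugation β) = complexEmbedding β
  have hβr' : complexEmbedding β = (r : ℂ) := hβr
  rw [complexEmbedding_complexConjugation, hβr', Complex.conj_ofReal]

end KummerRoot

section KummerMove

/-- Complex conjugation inverts roots of unity. -/
theorem complexConjugation_root_h701 {m : ℕ} (hm : m ≠ 0) {t : Qb} (ht : t ^ m = 1) :
    complexConjugation t = t⁻¹ := by
  apply complexEmbedding.toRingHom.injective
  show complexEmbedding (complexConjugation t) = complexEmbedding t⁻¹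
  rw [complexEmbedding_complexConjugation, map_inv₀]
  have h1 : (complexEmbedding t) ^ m = 1 := by rw [← map_pow, ht, map_one]
  have h2 : ‖complexEmbedding t‖ = 1 := Complex.norm_eq_one_of_pow_eq_one h1 hm
  exact (Complex.inv_eq_conj h2).symm

/-- a `p`-th root of a prime number is irrational (`p ≥ 2`) -/
theorem root_not_rational_h701 {p q : ℕ} (hp : 2 ≤ p) (hq : q.Prime) {β : Qb}
    (hβ : β ^ p = q) : β ∉ Set.range (algebraMap ℚ Qb) := by
  rintro ⟨r, rfl⟩
  have hr : r ^ p = (q : ℚ) := by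
    apply (algebraMap ℚ Qb).injective
    rw [map_pow, hβ, map_natCast]
  have hx : ((r : ℝ)) ^ p = ((q : ℤ) : ℝ) := by
    have := congrArg (fun t : ℚ => (t : ℝ)) hr
    simpa using this
  have hint : ∃ y : ℤ, (r : ℝ) = y := by
    by_contra hv
    exact (irrational_nrt_of_notint_nrt p (q : ℤ) hx hv (by omega)) ⟨r, rfl⟩
  obtain ⟨y, hy⟩ := hint
  rw [hy] at hx
  have hy2 : y ^ p = (q : ℤ) := by exact_mod_cast hx
  have hy3 : y.natAbs ^ p = q := by
    have := congrArg Int.natAbs hy2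
    rwa [Int.natAbs_pow, Int.natAbs_natCast] at this
  have := ((Nat.Prime.pow_eq_iff hq).mp hy3).2
  omega

/-- There is an element of `Gal(ℚ̄/ℚ(ζ_M))` moving the real `p`-th root `β` of the prime `q`
(`p` odd): `ℚ(β)` is not contained in the abelian field `ℚ(ζ_M)`. -/
theorem exists_moving_h701 {p q : ℕ} (hp : p.Prime) (hp2 : p ≠ 2) (hq : q.Prime) {β : Qb}
    (hβ : β ^ p = q) (hc : complexConjugation β = β) (M : ℕ) [NeZero M] :
    ∃ s : GQ701, cycloPow M s = 1 ∧ s β ≠ β := by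
  by_contra hcon
  push Not at hcon
  have hnot := root_not_rational_h701 hp.two_le hq hβ
  have : Algebra.IsAlgebraic ℚ Qb := AlgebraicClosure.isAlgebraic ℚ
  have : IsAlgClosure ℚ Qb := ⟨inferInstance, inferInstance⟩
  have : Normal ℚ Qb := IsAlgClosure.normal ℚ Qb
  have : IsGalois ℚ Qb := ⟨⟩
  rw [InfiniteGalois.mem_range_algebraMap_iff_fixed] at hnot
  push Not at hnot
  obtain ⟨g, hg⟩ := hnot
  have hs : cycloPow M (complexConjugation * g * complexConjugation⁻¹ * g⁻¹) = 1 := by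
    simp only [map_mul, map_inv]
    rw [mul_comm (cycloPow M complexConjugation) (cycloPow M g),
      mul_assoc (cycloPow M g), mul_inv_cancel, mul_one, mul_inv_cancel]
  have h1 := hcon _ hs
  rw [complexConjugation_inv] at h1
  -- `c (g (c (g⁻¹ β))) = β`
  have h2 : complexConjugation (g (complexConjugation (g⁻¹ β))) = β := h1
  have hcc : ∀ x : Qb, complexConjugation (complexConjugation x) = x := by
    intro x
    have := congrArg (fun f : GQ701 => f x) complexConjugation_mul_self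
    exact this
  have h3 : g (complexConjugation (g⁻¹ β)) = β := by
    have := congrArg complexConjugation h2
    rw [hcc, hc] at this
    exact this
  have h4 : complexConjugation (g⁻¹ β) = g⁻¹ β := by
    have := congrArg (fun x => (g⁻¹ : GQ701) x) h3
    have e : (g⁻¹ : GQ701) (g (complexConjugation (g⁻¹ β))) = complexConjugation (g⁻¹ β) := by
      show (g⁻¹ * g) _ = _
      rw [inv_mul_cancel]; rfl
    rw [e] at this
    exact this
  -- `y = g⁻¹ β` is a root fixed by `c`
  set y := g⁻¹ β with hy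
  have hq0 : (q : Qb) ≠ 0 := Nat.cast_ne_zero.mpr hq.ne_zero
  have hβ0 : β ≠ 0 := by
    rintro rfl
    rw [zero_pow hp.ne_zero] at hβ
    exact hq0 hβ.symm
  have hyp : y ^ p = q := by
    rw [hy, ← map_pow, hβ, map_natCast]
  have hz : (y / β) ^ p = 1 := by
    rw [div_pow, hyp, hβ, div_self hq0]
  have hcz : complexConjugation (y / β) = y / β := by
    rw [map_div₀, h4, hc]
  rw [complexConjugation_root_h701 hp.ne_zero hz] at hcz
  have hz0 : y / β ≠ 0 := by
    intro h
    rw [h, zero_pow hp.ne_zero] at hz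
    exact zero_ne_one hz
  have hz2 : (y / β) ^ 2 = 1 := by
    have := congrArg (fun t => t * (y / β)) hcz
    simp only [inv_mul_cancel₀ hz0] at this
    rw [pow_two]; exact this.symm
  have hodd : Odd p := hp.odd_of_ne_two hp2
  obtain ⟨t, ht⟩ := hodd
  have hz1 : y / β = 1 := by
    have : (y / β) ^ p = y / β := by
      rw [ht, pow_succ, pow_mul, hz2, one_pow, one_mul]
    rw [← this, hz]
  have hyβ : y = β := by
    rw [div_eq_one_iff_eq hβ0] at hz1
    exact hz1
  apply hg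
  have := congrArg g hyβ
  rw [hy] at this
  have e : g (g⁻¹ β) = β := by
    show (g * g⁻¹) β = β
    rw [mul_inv_cancel]; rfl
  rw [e] at this
  exact this.symm

end KummerMove

section Kummer2

/-- **(K2)** A Frobenius element at `ℓ ≡ 1 mod p`, `ℓ ∤ pq`, fixes every `p`-th root of `q` as
soon as `q ^ ((ℓ - 1) / p) ≡ 1 mod ℓ`. -/
theorem frob_fix_root_h701 {A : ValuationSubring Qb} {τ : GQ701} {ℓ p q : ℕ}
    (hℓ : ℓ.Prime) (hp : p.Prime) (hℓp : ℓ ≠ p) (hℓq : ¬ ℓ ∣ q)
    (hA : A.LiesOverPrime ℓ) (hτ : A.IsFrobeniusAt τ ℓ) (hpℓ : p ∣ ℓ - 1)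
    {β : Qb} (hβ : β ^ p = q) (hq : (q : ZMod ℓ) ^ ((ℓ - 1) / p) = 1) : τ β = β := by
  by_contra hne
  have : NeZero ℓ := ⟨hℓ.ne_zero⟩
  have hvq : A.valuation (q : Qb) = 1 :=
    val_natCast_eq_one_h701 hA ((Nat.Prime.coprime_iff_not_dvd hℓ).mpr hℓq)
  have hvp : A.valuation (p : Qb) = 1 :=
    val_natCast_eq_one_h701 hA ((Nat.coprime_primes hℓ hp).2 hℓp)
  have hvβ : A.valuation β = 1 := by
    have h : (A.valuation β) ^ p = 1 := by rw [← map_pow, hβ, hvq]
    exact (pow_eq_one_iff.1 h).resolve_right hp.ne_zero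
  have hβA : β ∈ A := (A.valuation_le_one_iff β).1 hvβ.le
  have h1 := Fermat.Agent.S55.H414.IsFrobeniusAt_val_sub_pow_lt_one hτ β hβA
  obtain ⟨e, he⟩ := hpℓ
  have hℓe : ℓ = p * e + 1 := by have := hℓ.one_le; omega
  have he' : (ℓ - 1) / p = e := by rw [he]; exact Nat.mul_div_cancel_left e hp.pos
  rw [he'] at hq
  have h2 : β ^ ℓ - β = β * ((q : Qb) ^ e - 1) := by
    rw [hℓe, pow_succ, pow_mul, hβ]; ring
  have h3 : (ℓ : ℤ) ∣ (q : ℤ) ^ e - 1 := by
    rw [← ZMod.intCast_zmod_eq_zero_iff_dvd]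
    push_cast
    rw [hq, sub_self]
  obtain ⟨t, ht⟩ := h3
  have h4 : A.valuation ((q : Qb) ^ e - 1) < 1 := by
    have : ((q : Qb) ^ e - 1) = (ℓ : Qb) * (t : Qb) := by
      have := congrArg (Int.cast : ℤ → Qb) ht
      push_cast at this
      exact this
    rw [this, map_mul]
    have hℓv : A.valuation (ℓ : Qb) < 1 := (A.mem_nonunits_iff).mp hA
    exact (mul_le_of_le_one_right' (Fermat.Agent.S55.Bridge.val_intCast_le_one t)).trans_lt hℓv
  have h5 : A.valuation (β ^ ℓ - β) < 1 := by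
    rw [h2, map_mul, hvβ, one_mul]; exact h4
  have h6 : A.valuation (τ β - β) < 1 := by
    have : τ β - β = (τ β - β ^ ℓ) + (β ^ ℓ - β) := by ring
    rw [this]
    exact Valuation.map_add_lt _ h1 h5
  have hq0 : (q : Qb) ≠ 0 := by
    intro h
    rw [h, _root_.map_zero] at hvq
    exact zero_ne_one hvq
  have hβ0 : β ≠ 0 := by
    rintro rfl
    rw [zero_pow hp.ne_zero] at hβ
    exact hq0 hβ.symm
  have hτβ : (τ β) ^ p = q := by rw [← map_pow, hβ, map_natCast]
  have hz : (τ β / β) ^ p = 1 := by rw [div_pow, hτβ, hβ, div_self hq0]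
  have hz1 : τ β / β ≠ 1 := fun h => hne ((div_eq_one_iff_eq hβ0).1 h)
  have h7 := Fermat.Agent.S55.Bridge.val_sub_roots_eq_one (A := A) hp.ne_zero hvp hz
    (one_pow p) hz1
  have h8 : τ β - β = β * (τ β / β - 1) := by field_simp
  rw [h8, map_mul, hvβ, h7, one_mul] at h6
  exact lt_irrefl _ h6

/-- If `x ^ p = q` in `ZMod ℓ` (`ℓ ∤ q`, `p ∣ ℓ - 1`) then `q ^ ((ℓ - 1) / p) = 1`. -/
theorem pow_eq_one_of_isPow_h701 {ℓ p q : ℕ} (hℓ : ℓ.Prime) (hp : 0 < p) (hℓq : ¬ ℓ ∣ q)
    (hpℓ : p ∣ ℓ - 1) (x : ZMod ℓ) (hx : x ^ p = (q : ZMod ℓ)) :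
    (q : ZMod ℓ) ^ ((ℓ - 1) / p) = 1 := by
  have : Fact ℓ.Prime := ⟨hℓ⟩
  have hq0 : (q : ZMod ℓ) ≠ 0 := by
    intro h
    exact hℓq ((ZMod.natCast_eq_zero_iff q ℓ).mp h)
  have hx0 : x ≠ 0 := by
    rintro rfl
    rw [zero_pow hp.ne'] at hx
    exact hq0 hx.symm
  rw [← hx, ← pow_mul, Nat.mul_div_cancel' hpℓ]
  exact ZMod.pow_card_sub_one_eq_one hx0

end Kummer2

section Package

variable (W : WeierstrassCurve ℤ) (p : ℕ) (M : ℕ) [NeZero M]

/-- the field `ℚ(E[p], ζ_M, β)` -/
noncomputable def kummerField_h701 (β : Qb) : IntermediateField ℚ Qb :=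
  IntermediateField.adjoin ℚ (genSet_h701 W p M ∪ {β})

lemma splitField_le_kummerField_h701 (β : Qb) :
    splitField_h701 W p M ≤ kummerField_h701 W p M β :=
  IntermediateField.adjoin.mono ℚ _ _ Set.subset_union_left

lemma mem_kummerField_h701 (β : Qb) : β ∈ kummerField_h701 W p M β :=
  IntermediateField.subset_adjoin _ _ (Or.inr rfl)

lemma finiteDimensional_kummerField_h701 (hfin : Finite (Submodule.torsionBy ℤ (Pts W) p))
    (β : Qb) : FiniteDimensional ℚ (kummerField_h701 W p M β) := by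
  have hS : (genSet_h701 W p M ∪ {β}).Finite := by
    unfold genSet_h701
    refine ((Set.finite_singleton _).union
      ((Set.finite_univ.image _).union (Set.finite_univ.image _))).union (Set.finite_singleton _)
  have : Finite (genSet_h701 W p M ∪ {β} : Set Qb) := hS.to_subtype
  have : Algebra.IsAlgebraic ℚ Qb := AlgebraicClosure.isAlgebraic ℚ
  exact IntermediateField.finiteDimensional_adjoin
    (fun x _ => (Algebra.IsAlgebraic.isAlgebraic x).isIntegral)

/-- **Frobenius package**: every `σ` is, on `ℚ(E[p], ζ_M, β)`, a power of a Frobenius element `τ`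
at a good prime `ℓ ∉ S`, `ℓ ∤ 6pM`, which is itself a power of `σ` there. -/
theorem exists_frob_package_h701 (hFrob : Fermat.Agent.Lib.Frob.FrobRelation)
    (hΔ : W.Δ ≠ 0) [Fact p.Prime] (hpM : p ∣ M)
    (hfin : Finite (Submodule.torsionBy ℤ (Pts W) p)) (β : Qb) (S : Finset ℕ) (σ : GQ701) :
    ∃ (ℓ : ℕ) (A : ValuationSubring Qb) (τ : GQ701) (k j : ℕ),
      ℓ.Prime ∧ ℓ ∉ S ∧ ℓ ≠ p ∧ W.IsGoodPrimeFor ℓ ∧ A.LiesOverPrime ℓ ∧ A.IsFrobeniusAt τ ℓ ∧
      galoisRepModuleEnd ℚ (W.map (Int.castRingHom ℚ)) p σ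
          = galoisRepModuleEnd ℚ (W.map (Int.castRingHom ℚ)) p τ ^ j ∧
      cycloPow M σ = cycloPow M τ ^ j ∧ cycloPow M τ = cycloPow M σ ^ k ∧
      (τ ^ j) β = σ β ∧
      ((cycloPow M τ : (ZMod M)ˣ) : ZMod M) = (ℓ : ZMod M) ∧
      galoisRepModuleEnd ℚ (W.map (Int.castRingHom ℚ)) p τ *
            galoisRepModuleEnd ℚ (W.map (Int.castRingHom ℚ)) p τ
          - ((W.apOfModel ℓ : ℤ) : ZMod p) •
              galoisRepModuleEnd ℚ (W.map (Int.castRingHom ℚ)) p τ
          + ((ZMod.unitsMap hpM (cycloPow M τ) : (ZMod p)ˣ) : ZMod p) •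
              (1 : Module.End (ZMod p) (Submodule.torsionBy ℤ (Pts W) p)) = 0 := by
  classical
  have hMpos : 0 < M := Nat.pos_of_ne_zero (NeZero.ne M)
  have hfd := finiteDimensional_kummerField_h701 W p M hfin β
  obtain ⟨ℓ, A, τ, k, j, hℓ, hℓS, hA, hτ, -, hτσ, hστ⟩ :=
    Fermat.Agent.Lib.Cheb.frobeniusDivision (kummerField_h701 W p M β) hfd σ
      (S ∪ {2, 3, p} ∪ M.primeFactors ∪ W.Δ.natAbs.primeFactors)
  simp only [Finset.mem_union, Finset.mem_insert, Finset.mem_singleton, not_or] at hℓS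
  obtain ⟨⟨⟨hℓS, hℓ2, hℓ3, hℓp⟩, hℓM⟩, hℓΔ⟩ := hℓS
  have h5 : 5 ≤ ℓ := by
    have h2' := hℓ.two_le
    by_contra hlt
    push Not at hlt
    interval_cases ℓ
    · exact hℓ2 rfl
    · exact hℓ3 rfl
    · exact absurd hℓ (by decide)
  have hcop : Nat.Coprime ℓ M := by
    rw [Nat.Prime.coprime_iff_not_dvd hℓ]
    intro h
    exact hℓM (Nat.mem_primeFactors.mpr ⟨hℓ, h, hMpos.ne'⟩)
  have hgood : W.IsGoodPrimeFor ℓ := by
    intro h
    apply hℓΔ
    rw [Nat.mem_primeFactors]
    refine ⟨hℓ, ?_, by simpa using hΔ⟩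
    exact Int.natCast_dvd.mp h
  have hχτ : ((cycloPow M τ : (ZMod M)ˣ) : ZMod M) = (ℓ : ZMod M) :=
    coe_cycloPow_frob_h701 hA hτ hcop
  have hε : ((ZMod.unitsMap hpM (cycloPow M τ) : (ZMod p)ˣ) : ZMod p) = (ℓ : ZMod p) := by
    rw [ZMod.unitsMap_def, Units.coe_map, MonoidHom.coe_coe, hχτ, map_natCast]
  have hτσ' : ∀ x ∈ splitField_h701 W p M, τ x = (σ ^ k) x :=
    fun x hx => hτσ x (splitField_le_kummerField_h701 W p M β hx)
  have hστ' : ∀ x ∈ splitField_h701 W p M, (τ ^ j) x = σ x :=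
    fun x hx => hστ x (splitField_le_kummerField_h701 W p M β hx)
  refine ⟨ℓ, A, τ, k, j, hℓ, hℓS, hℓp, hgood, hA, hτ, ?_, ?_, ?_, ?_, hχτ, ?_⟩
  · rw [← map_pow]
    apply LinearMap.ext
    intro P
    rw [galoisRepModuleEnd_apply, galoisRepModuleEnd_apply]
    exact (smul_eq_of_eqOn_splitField_h701 W p M (τ ^ j) σ hστ' P).symm
  · rw [← map_pow]
    exact (cycloPow_eq_of_eqOn_splitField_h701 W p M (τ ^ j) σ hστ').symm
  · rw [cycloPow_eq_of_eqOn_splitField_h701 W p M τ (σ ^ k) hτσ', map_pow]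
  · exact hστ β (mem_kummerField_h701 W p M β)
  · rw [hε]
    exact frob_relation_end_h701 hFrob W p ℓ hℓ h5 hgood hℓp A τ hA hτ

end Package

section Fix

/-- an element of the kernel of the cyclotomic character mod `M` fixes all `M`-th roots of unity -/
lemma apply_root_of_cycloPow_eq_one_h701 (M : ℕ) [NeZero M] (s : GQ701)
    (hs : cycloPow M s = 1) {t : Qb} (ht : t ^ M = 1) : s t = t := by
  have h1 : s (zetaBar M) = zetaBar M := by
    have := (Fermat.Agent.S55.H414.cycloPow_eq_iff M s 1).mp hs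
    rw [this, Units.val_one, ZMod.val_one_eq_one_mod]
    have hz := (zetaBar_spec M).pow_eq_one
    have h2 : zetaBar M ^ 1 = zetaBar M ^ (1 % M) := by
      conv_lhs => rw [← Nat.mod_add_div 1 M, pow_add, pow_mul, hz, one_pow, mul_one]
    rw [← h2, pow_one]
  obtain ⟨i, -, rfl⟩ := (zetaBar_spec M).eq_pow_of_pow_eq_one ht
  rw [map_pow, h1]

/-- powers of an automorphism fixing `β` fix `β` -/
lemma pow_apply_of_apply_h701 (τ : GQ701) {β : Qb} (h : τ β = β) (j : ℕ) : (τ ^ j) β = β := by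
  induction j with
  | zero => rfl
  | succ n ih =>
    rw [pow_succ]
    show (τ ^ n) (τ β) = β
    rw [h, ih]

end Fix

section NEPrime

/-- **Block NE', conditional on the Frobenius relation.** -/
theorem nonEisenstein_kummer_of_frobRelation_h701 (hFrob : Fermat.Agent.Lib.Frob.FrobRelation)
    (W : WeierstrassCurve ℤ) (hΔ : W.Δ ≠ 0) (p : ℕ) (hp : p.Prime) (hp2 : p ≠ 2)
    (hirr : W.ModRepIsIrreducible p) (q : ℕ) (hq : q.Prime)
    (S : Finset ℕ) (M₀ : ℕ) (hM₀ : 0 < M₀) :
    ∃ ℓ : ℕ, ℓ.Prime ∧ ℓ ∉ S ∧ W.IsGoodPrimeFor ℓ ∧ ℓ ≡ 1 [MOD M₀] ∧ ℓ ≡ 1 [MOD p] ∧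
      ¬ (p : ℤ) ∣ ((ℓ : ℤ) + 1 - W.apOfModel ℓ) ∧ (q : ZMod ℓ) ^ ((ℓ - 1) / p) ≠ 1 := by
  classical
  by_contra hcon0
  have hcon : ∀ ℓ : ℕ, ℓ.Prime → ℓ ∉ S → W.IsGoodPrimeFor ℓ → ℓ ≡ 1 [MOD M₀] → ℓ ≡ 1 [MOD p] →
      (q : ZMod ℓ) ^ ((ℓ - 1) / p) ≠ 1 → (p : ℤ) ∣ ((ℓ : ℤ) + 1 - W.apOfModel ℓ) := by
    intro ℓ h1 h2 h3 h4 h5 h6
    by_contra h7
    exact hcon0 ⟨ℓ, h1, h2, h3, h4, h5, h7, h6⟩
  have : Fact p.Prime := ⟨hp⟩
  obtain ⟨M, hMdef⟩ : ∃ M : ℕ, M = M₀ * p := ⟨_, rfl⟩
  have hMpos : 0 < M := by rw [hMdef]; exact Nat.mul_pos hM₀ hp.pos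
  have : NeZero M := ⟨hMpos.ne'⟩
  have hpM : p ∣ M := by rw [hMdef]; exact Dvd.intro_left _ rfl
  have hM₀M : M₀ ∣ M := by rw [hMdef]; exact Dvd.intro _ rfl
  have hΔQ : ((W.map (Int.castRingHom ℚ))⁄Qb).Δ ≠ 0 := by
    simp only [WeierstrassCurve.baseChange, WeierstrassCurve.map_Δ]
    simpa using hΔ
  have : ((W.map (Int.castRingHom ℚ))⁄Qb).IsElliptic := ⟨isUnit_iff_ne_zero.mpr hΔQ⟩
  have hdim : Module.finrank (ZMod p) (Submodule.torsionBy ℤ (Pts W) p) = 2 :=
    finrank_torsion_eq_two_h701 (K := Qb) (W.map (Int.castRingHom ℚ)) p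
  have hfin : Finite (Submodule.torsionBy ℤ (Pts W) p) :=
    finite_torsion_prelude_h701 (K := Qb) (W.map (Int.castRingHom ℚ)) p hp.one_le
  have h2 : (2 : ZMod p) ≠ 0 := by
    intro h
    have h' : ((2 : ℕ) : ZMod p) = 0 := by exact_mod_cast h
    rw [ZMod.natCast_eq_zero_iff] at h'
    exact hp2 ((Nat.prime_dvd_prime_iff_eq hp Nat.prime_two).mp h')
  -- the real `p`-th root of `q`
  obtain ⟨β, hβ, hcβ⟩ := exists_real_root_h701 p q hp.ne_zero
  have hq0 : (q : Qb) ≠ 0 := Nat.cast_ne_zero.mpr hq.ne_zero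
  have hβ0 : β ≠ 0 := by
    rintro rfl
    rw [zero_pow hp.ne_zero] at hβ
    exact hq0 hβ.symm
  -- (Eis') elements of the kernel moving `β` are unipotent
  have hmove : ∀ s : GQ701, cycloPow M s = 1 → s β ≠ β →
      (galoisRepModuleEnd ℚ (W.map (Int.castRingHom ℚ)) p s - 1) *
        (galoisRepModuleEnd ℚ (W.map (Int.castRingHom ℚ)) p s - 1) = 0 := by
    intro s hs hsβ
    obtain ⟨ℓ, A, τ, k, j, hℓ, hℓS, hℓp, hgood, hA, hτ, hρ, -, hχk, hβj, hχτ, hrel⟩ :=
      exists_frob_package_h701 W p M hFrob hΔ hpM hfin β (insert q S) s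
    rw [Finset.mem_insert, not_or] at hℓS
    obtain ⟨hℓq, hℓS⟩ := hℓS
    have hτ1 : cycloPow M τ = 1 := by rw [hχk, hs, one_pow]
    rw [hτ1, Units.val_one] at hχτ
    have hℓ1 : ℓ ≡ 1 [MOD M] := by
      rw [← ZMod.natCast_eq_natCast_iff, ← hχτ, Nat.cast_one]
    have hℓ1p : ℓ ≡ 1 [MOD p] := hℓ1.of_dvd hpM
    have hpℓ : p ∣ ℓ - 1 := (Nat.modEq_iff_dvd' hℓ.one_le).mp hℓ1p.symm
    have hτβ : τ β ≠ β := by
      intro h
      apply hsβ
      rw [← hβj]
      exact pow_apply_of_apply_h701 τ h j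
    have hℓq' : ¬ ℓ ∣ q := by
      intro h
      exact hℓq ((Nat.prime_dvd_prime_iff_eq hℓ hq).mp h)
    have hkum : (q : ZMod ℓ) ^ ((ℓ - 1) / p) ≠ 1 := by
      intro h
      exact hτβ (frob_fix_root_h701 hℓ hp hℓp hℓq' hA hτ hpℓ hβ h)
    have hdvd := hcon ℓ hℓ hℓS hgood (hℓ1.of_dvd hM₀M) hℓ1p hkum
    have hℓ1p' : (ℓ : ZMod p) = 1 := by
      have := (ZMod.natCast_eq_natCast_iff ℓ 1 p).mpr hℓ1p
      simpa using this
    have h0 : (((ℓ : ℤ) + 1 - W.apOfModel ℓ : ℤ) : ZMod p) = 0 :=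
      (ZMod.intCast_zmod_eq_zero_iff_dvd _ p).mpr hdvd
    push_cast at h0
    rw [hℓ1p'] at h0
    have ha : ((W.apOfModel ℓ : ℤ) : ZMod p) = 2 := by
      have : ((W.apOfModel ℓ : ℤ) : ZMod p) = 1 + 1 := (sub_eq_zero.mp h0).symm
      rw [this]; norm_num
    rw [ha, hτ1, map_one, Units.val_one, one_smul, two_smul] at hrel
    have h1 : (galoisRepModuleEnd ℚ (W.map (Int.castRingHom ℚ)) p τ - 1) *
        (galoisRepModuleEnd ℚ (W.map (Int.castRingHom ℚ)) p τ - 1) = 0 := by
      rw [← hrel]; noncomm_ring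
    rw [hρ]
    exact sq_zero_pow_sub_one_h701 _ h1 j
  -- (K1) an element of the kernel moving `β`
  obtain ⟨s₁, hs₁, hs₁β⟩ := exists_moving_h701 hp hp2 hq hβ hcβ M
  -- (K3) the whole kernel is unipotent
  have hunip : ∀ s : GQ701, cycloPow M s = 1 →
      (galoisRepModuleEnd ℚ (W.map (Int.castRingHom ℚ)) p s - 1) *
        (galoisRepModuleEnd ℚ (W.map (Int.castRingHom ℚ)) p s - 1) = 0 := by
    intro s hs
    by_cases hsβ : s β = β
    · -- trace trick with `s₁`
      have e1 : (s₁ * s) β = s₁ β := by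
        show s₁ (s β) = s₁ β
        rw [hsβ]
      have hz : (s₁ β / β) ^ p = 1 := by
        rw [div_pow, ← map_pow, hβ, map_natCast, div_self hq0]
      have hzM : (s₁ β / β) ^ M = 1 := by
        obtain ⟨d, hd⟩ := hpM
        rw [hd, pow_mul, hz, one_pow]
      have hfixz : s₁ (s₁ β / β) = s₁ β / β :=
        apply_root_of_cycloPow_eq_one_h701 M s₁ hs₁ hzM
      have e2 : (s₁ * s₁ * s) β = β * (s₁ β / β) ^ 2 := by
        show s₁ (s₁ (s β)) = _
        rw [hsβ]
        have : s₁ β = β * (s₁ β / β) := by field_simp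
        conv_lhs => rw [this, map_mul, hfixz]
        rw [this]
        field_simp
      have hne2 : (s₁ * s₁ * s) β ≠ β := by
        rw [e2]
        intro h
        have hz2 : (s₁ β / β) ^ 2 = 1 := by
          have := mul_left_cancel₀ hβ0 (h.trans (mul_one β).symm)
          exact this
        obtain ⟨t, ht⟩ := hp.odd_of_ne_two hp2
        have hz1 : s₁ β / β = 1 := by
          have : (s₁ β / β) ^ p = s₁ β / β := by
            rw [ht, pow_succ, pow_mul, hz2, one_pow, one_mul]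
          rw [← this, hz]
        exact hs₁β ((div_eq_one_iff_eq hβ0).1 hz1)
      have u0 := hmove s₁ hs₁ hs₁β
      have u1 := hmove (s₁ * s) (by rw [map_mul, hs₁, hs, one_mul]) (by rw [e1]; exact hs₁β)
      have u2 := hmove (s₁ * s₁ * s) (by rw [map_mul, map_mul, hs₁, hs, one_mul, one_mul]) hne2
      rw [map_mul] at u1
      rw [map_mul, map_mul] at u2
      exact unipotent_of_pair_h701 hdim _ _ u0 u1 u2
    · exact hmove s hs hsβ
  -- the Frobenius relation for determinants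
  have hF : ∀ σ : GQ701, ∃ (τ : GQ701) (j : ℕ) (a : ZMod p),
      galoisRepModuleEnd ℚ (W.map (Int.castRingHom ℚ)) p σ
          = galoisRepModuleEnd ℚ (W.map (Int.castRingHom ℚ)) p τ ^ j ∧
        cycloPow M σ = cycloPow M τ ^ j ∧
        galoisRepModuleEnd ℚ (W.map (Int.castRingHom ℚ)) p τ *
            galoisRepModuleEnd ℚ (W.map (Int.castRingHom ℚ)) p τ
          - a • galoisRepModuleEnd ℚ (W.map (Int.castRingHom ℚ)) p τ
          + ((ZMod.unitsMap hpM (cycloPow M τ) : (ZMod p)ˣ) : ZMod p) •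
              (1 : Module.End (ZMod p) (Submodule.torsionBy ℤ (Pts W) p)) = 0 := by
    intro σ
    obtain ⟨ℓ, A, τ, k, j, -, -, -, -, -, -, hρ, hχ, -, -, -, hrel⟩ :=
      exists_frob_package_h701 W p M hFrob hΔ hpM hfin β S σ
    exact ⟨τ, j, _, hρ, hχ, hrel⟩
  obtain ⟨c, hc⟩ := exists_cycloPow_eq_neg_one_h701 M
  have hc2 : cycloPow M c * cycloPow M c = 1 := by rw [hc]; simp
  have hcε : ((ZMod.unitsMap hpM (cycloPow M c) : (ZMod p)ˣ) : ZMod p) = -1 := by
    rw [hc, ZMod.unitsMap_def, Units.coe_map, MonoidHom.coe_coe, Units.val_neg, Units.val_one,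
      map_neg, map_one]
  obtain ⟨L, hL0, hL1, hLstab⟩ := exists_stable_line_of_unipotent_h701 h2 hdim
    (galoisRepModuleEnd ℚ (W.map (Int.castRingHom ℚ)) p) (cycloPow M) (ZMod.unitsMap hpM)
    hunip hF c hc2 hcε
  rcases hirr.2 L (fun σ x hx => hLstab σ x hx) with h | h
  · exact hL0 h
  · exact hL1 h

end NEPrime

end Fermat.Agent.S41.H701
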