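import Mathlib
import Fermat.Prelude.Def_FLTPrelim_GaloisRep
import Fermat.Prelude.Def_FLTPrelim_Modularity
import Fermat.Prelude.Def_FLTPrelim_ModularRep
import Fermat.Agent.Lib.VC.BaseChange

/-!
# Irreducibility of `E[p]` passes to integral models (helper701, S41 block NE)

`GaloisRepIsIrreducible ℚ E p → W.ModRepIsIrreducible p` for `W.IsIntegralModelOf E`
(the change of variables is a Galois-equivariant group isomorphism on `ℚ̄`-points).
-/

set_option autoImplicit false

open WeierstrassCurve WeierstrassCurve.Affine WeierstrassCurve.Affine.Point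

namespace Fermat.Agent.S41.H701

/-- Galois equivariance of the change of variables on `ℚ̄`-points. -/
theorem vcPointBC_smul_h701 (E : WeierstrassCurve ℚ) (C : WeierstrassCurve.VariableChange ℚ)
    (σ : AlgebraicClosure ℚ ≃ₐ[ℚ] AlgebraicClosure ℚ)
    (P : ((C • E)⁄(AlgebraicClosure ℚ)).Point) :
    Fermat.Agent.Lib.VC.vcPointBC E C (AlgebraicClosure ℚ) (σ • P)
      = σ • Fermat.Agent.Lib.VC.vcPointBC E C (AlgebraicClosure ℚ) P := by
  rw [algEquiv_smul_def, algEquiv_smul_def]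
  exact (Fermat.Agent.Lib.VC.map_vcPointBC E C σ.toAlgHom P).symm

/-- Irreducibility of the mod `n` representation is invariant under change of variables. -/
theorem galoisRepIsIrreducible_smul_h701 (E : WeierstrassCurve ℚ)
    (C : WeierstrassCurve.VariableChange ℚ) (n : ℕ)
    (hirr : GaloisRepIsIrreducible (K := AlgebraicClosure ℚ) ℚ E n) :
    GaloisRepIsIrreducible (K := AlgebraicClosure ℚ) ℚ (C • E) n := by
  classical
  set φ := Fermat.Agent.Lib.VC.vcPointBC E C (AlgebraicClosure ℚ) with hφ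
  have hmem : ∀ P : ((C • E)⁄(AlgebraicClosure ℚ)).Point,
      P ∈ Submodule.torsionBy ℤ ((C • E)⁄(AlgebraicClosure ℚ)).Point n →
      φ P ∈ Submodule.torsionBy ℤ (E⁄(AlgebraicClosure ℚ)).Point n := by
    intro P hP
    rw [Submodule.mem_torsionBy_iff] at hP ⊢
    rw [← map_zsmul, hP, _root_.map_zero]
  have hmem' : ∀ Q : (E⁄(AlgebraicClosure ℚ)).Point,
      Q ∈ Submodule.torsionBy ℤ (E⁄(AlgebraicClosure ℚ)).Point n →
      φ.symm Q ∈ Submodule.torsionBy ℤ ((C • E)⁄(AlgebraicClosure ℚ)).Point n := by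
    intro Q hQ
    rw [Submodule.mem_torsionBy_iff] at hQ ⊢
    rw [← map_zsmul, hQ, _root_.map_zero]
  -- the induced additive map on torsion
  let ψ : Submodule.torsionBy ℤ ((C • E)⁄(AlgebraicClosure ℚ)).Point n →+
      Submodule.torsionBy ℤ (E⁄(AlgebraicClosure ℚ)).Point n :=
    { toFun := fun P => ⟨φ P, hmem P P.2⟩
      map_zero' := Subtype.ext (_root_.map_zero φ)
      map_add' := fun P Q => Subtype.ext (_root_.map_add φ (P : ((C • E)⁄(AlgebraicClosure ℚ)).Point) Q) }
  have hψinj : Function.Injective ψ := by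
    intro P Q h
    apply Subtype.ext
    apply φ.injective
    exact congrArg Subtype.val h
  have hψsurj : Function.Surjective ψ := by
    intro Q
    refine ⟨⟨φ.symm Q, hmem' Q Q.2⟩, ?_⟩
    apply Subtype.ext
    exact φ.apply_symm_apply Q
  have hψσ : ∀ (σ : AlgebraicClosure ℚ ≃ₐ[ℚ] AlgebraicClosure ℚ)
      (P : Submodule.torsionBy ℤ ((C • E)⁄(AlgebraicClosure ℚ)).Point n),
      ψ (σ • P) = σ • ψ P := by
    intro σ P
    apply Subtype.ext
    exact vcPointBC_smul_h701 E C σ P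
  obtain ⟨hnt, hN⟩ := hirr
  refine ⟨?_, ?_⟩
  · obtain ⟨Q, Q', hQ⟩ := hnt
    obtain ⟨P, rfl⟩ := hψsurj Q
    obtain ⟨P', rfl⟩ := hψsurj Q'
    exact ⟨P, P', fun h => hQ (by rw [h])⟩
  · intro N hNstab
    let ψl : Submodule.torsionBy ℤ ((C • E)⁄(AlgebraicClosure ℚ)).Point n →ₗ[ZMod n]
        Submodule.torsionBy ℤ (E⁄(AlgebraicClosure ℚ)).Point n := ψ.toZModLinearMap n
    have hψl : ∀ P, ψl P = ψ P := fun P => rfl
    have hstab : IsGaloisStable ℚ (N.map ψl) := by
      intro σ Q hQ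
      obtain ⟨P, hP, rfl⟩ := hQ
      refine ⟨σ • P, hNstab σ P hP, ?_⟩
      rw [hψl, hψl, hψσ]
    rcases hN (N.map ψl) hstab with h | h
    · left
      rw [eq_bot_iff]
      intro P hP
      have h1 : ψl P ∈ N.map ψl := ⟨P, hP, rfl⟩
      rw [h, Submodule.mem_bot, hψl] at h1
      rw [Submodule.mem_bot]
      exact hψinj (by rw [h1, _root_.map_zero])
    · right
      rw [eq_top_iff]
      intro P _
      have h1 : ψl P ∈ N.map ψl := by rw [h]; trivial
      obtain ⟨P', hP', hPP'⟩ := h1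
      rw [hψl, hψl] at hPP'
      rw [← hψinj hPP']
      exact hP'

/-- Irreducibility passes from `E` to an integral model. -/
theorem modRepIsIrreducible_of_isIntegralModelOf_h701 (E : WeierstrassCurve ℚ)
    {W : WeierstrassCurve ℤ} (hW : W.IsIntegralModelOf E) (n : ℕ)
    (hirr : GaloisRepIsIrreducible (K := AlgebraicClosure ℚ) ℚ E n) :
    W.ModRepIsIrreducible n := by
  obtain ⟨C, hC⟩ := hW
  unfold WeierstrassCurve.ModRepIsIrreducible
  rw [← hC]
  exact galoisRepIsIrreducible_smul_h701 E C n hirr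

/-- The discriminant of an integral model of an elliptic curve is nonzero. -/
theorem Δ_ne_zero_of_isIntegralModelOf_h701 (E : WeierstrassCurve ℚ) [E.IsElliptic]
    {W : WeierstrassCurve ℤ} (hW : W.IsIntegralModelOf E) : W.Δ ≠ 0 := by
  obtain ⟨C, hC⟩ := hW
  intro h
  have h1 : (W.map (Int.castRingHom ℚ)).Δ = 0 := by
    rw [WeierstrassCurve.map_Δ, h, _root_.map_zero]
  rw [← hC, WeierstrassCurve.variableChange_Δ] at h1
  have h2 : E.Δ ≠ 0 := (E.isUnit_Δ).ne_zero
  have h3 : ((C.u⁻¹ : ℚˣ) : ℚ) ^ 12 ≠ 0 := pow_ne_zero _ (Units.ne_zero _)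
  exact (mul_ne_zero h3 h2) h1

end Fermat.Agent.S41.H701
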