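import Fermat.Agent.S41.H701.NonEisenstein
import Fermat.Agent.S41.H701.ModelTransfer
import Fermat.Agent.Lib.Frob.Glue
import Fermat.Agent.Lib.Frob.A1.Main
import Fermat.Agent.Lib.Frob.A2.Main

/-!
# S41, block NE — UNCONDITIONAL (helper701)

* `frobRelation_h701 : Lib.Frob.FrobRelation` (assembled from row S52's pieces A1, A2 on main);
* `nonEisenstein_h701` : `W[p]` irreducible, `p` odd ⇒ for every finite `S` and `M₀ ≥ 1` there is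
  a prime `ℓ ∉ S`, good for `W`, `ℓ ≡ 1 mod M₀`, with `p ∤ ℓ + 1 - a_ℓ(W)`;
* `nonEisenstein_of_model_h701` : the same with the hypotheses of S41 (`E`, `W.IsIntegralModelOf E`,
  `GaloisRepIsIrreducible ℚ E p`);
* `nonEisenstein_zmod_h701`, `nonEisenstein_ideal_h701` : the conclusion in `ZMod p`, resp. modulo
  a maximal ideal `𝔪 ∋ p` of `ℤ̄ = integralClosure ℤ ℂ`.
-/

set_option autoImplicit false

open WeierstrassCurve WeierstrassCurve.Affine WeierstrassCurve.Affine.Point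

namespace Fermat.Agent.S41.H701

/-- The Frobenius relation (row S52, pieces A1 + A2). -/
theorem frobRelation_h701 : Fermat.Agent.Lib.Frob.FrobRelation :=
  Fermat.Agent.Lib.Frob.frobRelation_of_parts Fermat.Agent.Lib.Frob.frobRelationFin
    Fermat.Agent.Lib.Frob.reductionData

/-- **Block NE.**  If `W[p]` is irreducible (`p` odd), then for every finite set `S` and every
`M₀ ≥ 1` there is a prime `ℓ ∉ S` of good reduction, `ℓ ≡ 1 mod M₀`, with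
`p ∤ ℓ + 1 - a_ℓ(W)`. -/
theorem nonEisenstein_h701 (W : WeierstrassCurve ℤ) (hΔ : W.Δ ≠ 0) (p : ℕ) (hp : p.Prime)
    (hp2 : p ≠ 2) (hirr : W.ModRepIsIrreducible p) (S : Finset ℕ) (M₀ : ℕ) (hM₀ : 0 < M₀) :
    ∃ ℓ : ℕ, ℓ.Prime ∧ ℓ ∉ S ∧ W.IsGoodPrimeFor ℓ ∧ ℓ ≡ 1 [MOD M₀] ∧
      ¬ (p : ℤ) ∣ ((ℓ : ℤ) + 1 - W.apOfModel ℓ) :=
  nonEisenstein_of_frobRelation_h701 frobRelation_h701 W hΔ p hp hp2 hirr S M₀ hM₀

/-- **Block NE with the hypotheses of S41.** -/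
theorem nonEisenstein_of_model_h701 (E : WeierstrassCurve ℚ) [E.IsElliptic]
    {W : WeierstrassCurve ℤ} (hW : W.IsIntegralModelOf E) {p : ℕ} (hp : p.Prime) (hp2 : p ≠ 2)
    (hirr : GaloisRepIsIrreducible (K := AlgebraicClosure ℚ) ℚ E p)
    (S : Finset ℕ) (M₀ : ℕ) (hM₀ : 0 < M₀) :
    ∃ ℓ : ℕ, ℓ.Prime ∧ ℓ ∉ S ∧ W.IsGoodPrimeFor ℓ ∧ ℓ ≡ 1 [MOD M₀] ∧
      ¬ (p : ℤ) ∣ ((ℓ : ℤ) + 1 - W.apOfModel ℓ) :=
  nonEisenstein_h701 W (Δ_ne_zero_of_isIntegralModelOf_h701 E hW) p hp hp2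
    (modRepIsIrreducible_of_isIntegralModelOf_h701 E hW p hirr) S M₀ hM₀

/-- Block NE, conclusion in `ZMod p`. -/
theorem nonEisenstein_zmod_h701 (E : WeierstrassCurve ℚ) [E.IsElliptic]
    {W : WeierstrassCurve ℤ} (hW : W.IsIntegralModelOf E) {p : ℕ} (hp : p.Prime) (hp2 : p ≠ 2)
    (hirr : GaloisRepIsIrreducible (K := AlgebraicClosure ℚ) ℚ E p)
    (S : Finset ℕ) (M₀ : ℕ) (hM₀ : 0 < M₀) :
    ∃ ℓ : ℕ, ℓ.Prime ∧ ℓ ∉ S ∧ W.IsGoodPrimeFor ℓ ∧ ℓ ≡ 1 [MOD M₀] ∧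
      ((W.apOfModel ℓ : ℤ) : ZMod p) ≠ (ℓ : ZMod p) + 1 := by
  obtain ⟨ℓ, h1, h2, h3, h4, h5⟩ := nonEisenstein_of_model_h701 E hW hp hp2 hirr S M₀ hM₀
  refine ⟨ℓ, h1, h2, h3, h4, ?_⟩
  intro h
  apply h5
  rw [← ZMod.intCast_zmod_eq_zero_iff_dvd]
  push_cast
  rw [h, sub_self]

/-- An integer lying in a maximal ideal of `ℤ̄` over `p` is divisible by `p`. -/
theorem dvd_of_intCast_mem_h701 {p : ℕ} (hp : p.Prime) (𝔪 : Ideal (integralClosure ℤ ℂ))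
    (hmax : 𝔪.IsMaximal) (hpm : (p : integralClosure ℤ ℂ) ∈ 𝔪) (n : ℤ)
    (hn : (n : integralClosure ℤ ℂ) ∈ 𝔪) : (p : ℤ) ∣ n := by
  by_contra hnd
  have hcop : IsCoprime (p : ℤ) n :=
    (Prime.coprime_iff_not_dvd (Nat.prime_iff_prime_int.mp hp)).mpr hnd
  obtain ⟨u, v, huv⟩ := hcop
  have h1 : (u : integralClosure ℤ ℂ) * (p : integralClosure ℤ ℂ)
      + (v : integralClosure ℤ ℂ) * (n : integralClosure ℤ ℂ) = 1 := by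
    have := congrArg (Int.cast : ℤ → integralClosure ℤ ℂ) huv
    push_cast at this
    exact this
  apply hmax.ne_top
  rw [Ideal.eq_top_iff_one, ← h1]
  exact 𝔪.add_mem (𝔪.mul_mem_left _ hpm) (𝔪.mul_mem_left _ hn)

/-- Block NE, conclusion modulo a maximal ideal `𝔪 ∋ p` of `ℤ̄`. -/
theorem nonEisenstein_ideal_h701 (E : WeierstrassCurve ℚ) [E.IsElliptic]
    {W : WeierstrassCurve ℤ} (hW : W.IsIntegralModelOf E) {p : ℕ} (hp : p.Prime) (hp2 : p ≠ 2)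
    (hirr : GaloisRepIsIrreducible (K := AlgebraicClosure ℚ) ℚ E p)
    (𝔪 : Ideal (integralClosure ℤ ℂ)) (hmax : 𝔪.IsMaximal)
    (hpm : (p : integralClosure ℤ ℂ) ∈ 𝔪) (S : Finset ℕ) (M₀ : ℕ) (hM₀ : 0 < M₀) :
    ∃ ℓ : ℕ, ℓ.Prime ∧ ℓ ∉ S ∧ W.IsGoodPrimeFor ℓ ∧ ℓ ≡ 1 [MOD M₀] ∧
      ((W.apOfModel ℓ : ℤ) : integralClosure ℤ ℂ) - ((ℓ : integralClosure ℤ ℂ) + 1) ∉ 𝔪 := by
  obtain ⟨ℓ, h1, h2, h3, h4, h5⟩ := nonEisenstein_of_model_h701 E hW hp hp2 hirr S M₀ hM₀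
  refine ⟨ℓ, h1, h2, h3, h4, ?_⟩
  intro h
  apply h5
  have h' : (((W.apOfModel ℓ - ((ℓ : ℤ) + 1) : ℤ)) : integralClosure ℤ ℂ) ∈ 𝔪 := by
    push_cast
    exact h
  have := dvd_of_intCast_mem_h701 hp 𝔪 hmax hpm _ h'
  have h6 : (ℓ : ℤ) + 1 - W.apOfModel ℓ = -(W.apOfModel ℓ - ((ℓ : ℤ) + 1)) := by ring
  rw [h6]
  exact (dvd_neg).mpr this

end Fermat.Agent.S41.H701
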