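import Fermat.Agent.S41.H701.NonEisensteinKummer
import Fermat.Agent.S41.H701.NonEisensteinMain

/-!
# S41, block NE' — UNCONDITIONAL (helper701)

`nePrime_h701` : for `E/ℚ` with integral model `W`, `p` odd with `E[p]` irreducible, a prime `q`,
`m ≥ 1` and a finite set `S` there is a prime `ℓ ∉ S`, `ℓ ≠ p`, `ℓ ≠ q`, good for `W`,
`ℓ ≡ 1 mod m`, `ℓ ≡ 1 mod p`, such that

* `p ∤ a_ℓ(W) - (ℓ + 1)`   (non-Eisenstein),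
* `q ^ ((ℓ - 1) / p) ≠ 1` in `ZMod ℓ`   (Kummer condition, helper744's shape),
* `∀ x : ZMod ℓ, x ^ p ≠ q`   (`q` is not a `p`-th power mod `ℓ`, helper161's shape).

`nePrime_model_h701` is the same for an integral model `W` with `W[p]` irreducible.
-/

set_option autoImplicit false

open WeierstrassCurve WeierstrassCurve.Affine WeierstrassCurve.Affine.Point

namespace Fermat.Agent.S41.H701

/-- **Block NE'**, model form. -/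
theorem nePrime_model_h701 (W : WeierstrassCurve ℤ) (hΔ : W.Δ ≠ 0) (p : ℕ) (hp : p.Prime)
    (hp2 : p ≠ 2) (hirr : W.ModRepIsIrreducible p) (q : ℕ) (hq : q.Prime)
    (m : ℕ) (hm : 0 < m) (S : Finset ℕ) :
    ∃ ℓ : ℕ, ℓ.Prime ∧ ℓ ∉ S ∧ ℓ ≠ p ∧ ℓ ≠ q ∧ W.IsGoodPrimeFor ℓ ∧ ℓ ≡ 1 [MOD m] ∧
      ℓ ≡ 1 [MOD p] ∧ ¬ (p : ℤ) ∣ W.apOfModel ℓ - ((ℓ : ℤ) + 1) ∧
      (q : ZMod ℓ) ^ ((ℓ - 1) / p) ≠ 1 ∧ ∀ x : ZMod ℓ, x ^ p ≠ (q : ZMod ℓ) := by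
  classical
  obtain ⟨ℓ, h1, h2, h3, h4, h5, h6, h7⟩ :=
    nonEisenstein_kummer_of_frobRelation_h701 frobRelation_h701 W hΔ p hp hp2 hirr q hq
      (insert p (insert q S)) m hm
  simp only [Finset.mem_insert, not_or] at h2
  obtain ⟨hℓp, hℓq, hℓS⟩ := h2
  have hpℓ : p ∣ ℓ - 1 := (Nat.modEq_iff_dvd' h1.one_le).mp h5.symm
  have hℓq' : ¬ ℓ ∣ q := fun h => hℓq ((Nat.prime_dvd_prime_iff_eq h1 hq).mp h)
  refine ⟨ℓ, h1, hℓS, hℓp, hℓq, h3, h4, h5, ?_, h7, ?_⟩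
  · intro h
    apply h6
    have e : (ℓ : ℤ) + 1 - W.apOfModel ℓ = -(W.apOfModel ℓ - ((ℓ : ℤ) + 1)) := by ring
    rw [e]
    exact dvd_neg.mpr h
  · intro x hx
    exact h7 (pow_eq_one_of_isPow_h701 h1 hp.pos hℓq' hpℓ x hx)

/-- **Block NE'** with the hypotheses of S41. -/
theorem nePrime_h701 (E : WeierstrassCurve ℚ) [E.IsElliptic] (W : WeierstrassCurve ℤ)
    (hW : W.IsIntegralModelOf E) (p : ℕ) (hp : p.Prime) (hp2 : p ≠ 2)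
    (hirr : GaloisRepIsIrreducible (K := AlgebraicClosure ℚ) ℚ E p) (q : ℕ) (hq : q.Prime)
    (m : ℕ) (hm : 0 < m) (S : Finset ℕ) :
    ∃ ℓ : ℕ, ℓ.Prime ∧ ℓ ∉ S ∧ ℓ ≠ p ∧ ℓ ≠ q ∧ W.IsGoodPrimeFor ℓ ∧ ℓ ≡ 1 [MOD m] ∧
      ℓ ≡ 1 [MOD p] ∧ ¬ (p : ℤ) ∣ W.apOfModel ℓ - ((ℓ : ℤ) + 1) ∧
      (q : ZMod ℓ) ^ ((ℓ - 1) / p) ≠ 1 ∧ ∀ x : ZMod ℓ, x ^ p ≠ (q : ZMod ℓ) :=
  nePrime_model_h701 W (Δ_ne_zero_of_isIntegralModelOf_h701 E hW) p hp hp2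
    (modRepIsIrreducible_of_isIntegralModelOf_h701 E hW p hirr) q hq m hm S

end Fermat.Agent.S41.H701
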