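import Fermat.Agent.S41.Spec.NE
import Fermat.Agent.S41.H701.NonEisensteinMain

/-!
# S41, block NE — the frozen interface statement (helper701)

* `ne_h701 : Fermat.Agent.S41.Spec.NEStatement` (the Prop of `Spec/NE.lean`, sub-architect
  helper45);
* `ne_blocks_h701` : the variant of the row-lead's `Spec/Blocks.lean` (with a modulus `M` to avoid
  instead of a finite set, `l ≠ p`, and `l % m = 1 % m`), stated explicitly.

Unconditional: sorry-free, no hypotheses beyond those of the statement.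
-/

set_option autoImplicit false

open WeierstrassCurve WeierstrassCurve.Affine WeierstrassCurve.Affine.Point

namespace Fermat.Agent.S41.H701

/-- **Block NE** in the frozen form of `Spec/NE.lean`. -/
theorem ne_h701 : Fermat.Agent.S41.Spec.NEStatement := by
  intro E _ W hW p hp hp2 hirr m hm S
  obtain ⟨ℓ, h1, h2, h3, h4, h5⟩ := nonEisenstein_of_model_h701 E hW hp hp2 hirr S m hm
  refine ⟨ℓ, h1, h2, h3, h4, ?_⟩
  intro h
  apply h5
  have h6 : (ℓ : ℤ) + 1 - W.apOfModel ℓ = -(W.apOfModel ℓ - ((ℓ : ℤ) + 1)) := by ring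
  rw [h6]
  exact dvd_neg.mpr h

/-- **Block NE** in the form of the row-lead's `Spec/Blocks.lean` (v2). -/
theorem ne_blocks_h701 :
    ∀ (E : WeierstrassCurve ℚ) [E.IsElliptic] (W : WeierstrassCurve ℤ), W.IsIntegralModelOf E →
      ∀ p : ℕ, p.Prime → p ≠ 2 → GaloisRepIsIrreducible (K := AlgebraicClosure ℚ) ℚ E p →
        ∀ m M : ℕ, 0 < m → 0 < M →
          ∃ l : ℕ, l.Prime ∧ W.IsGoodPrimeFor l ∧ ¬ l ∣ M ∧ l ≠ p ∧ l % m = 1 % m ∧
            ¬ (p : ℤ) ∣ W.apOfModel l - (l + 1) := by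
  intro E _ W hW p hp hp2 hirr m M hm hM
  obtain ⟨ℓ, h1, h2, h3, h4, h5⟩ := ne_h701 E W hW p hp hp2 hirr m hm (M.primeFactors ∪ {p})
  simp only [Finset.mem_union, Finset.mem_singleton, not_or] at h2
  refine ⟨ℓ, h1, h3, ?_, h2.2, h4, h5⟩
  intro hdvd
  exact h2.1 (Nat.mem_primeFactors.mpr ⟨h1, hdvd, hM.ne'⟩)

end Fermat.Agent.S41.H701
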