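import Fermat.Agent.S41.Spec.Blocks
import Fermat.Agent.S41.H701.NonEisensteinMain

/-!
# S41, block NE — the row-lead's interface statement (helper701)

`neBlocks_h701 : Fermat.Agent.S41.Spec.NEStatement`, where `NEStatement` is the Prop of
`Fermat/Agent/S41/Spec/Blocks.lean` (row-lead helper41).  This file does NOT import
`Spec/NE.lean` (whose `NEStatement` has the same name and a different shape), so that it can be
imported by the glue file together with `Spec/Blocks.lean`.

Unconditional.
-/

set_option autoImplicit false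

open WeierstrassCurve WeierstrassCurve.Affine WeierstrassCurve.Affine.Point

namespace Fermat.Agent.S41.H701

/-- **Block NE** in the form of `Spec/Blocks.lean`. -/
theorem neBlocks_h701 : Fermat.Agent.S41.Spec.NEStatement := by
  intro E _ W hW p hp hp2 hirr m M hm hM
  obtain ⟨ℓ, h1, h2, h3, h4, h5⟩ :=
    nonEisenstein_of_model_h701 E hW hp hp2 hirr (M.primeFactors ∪ {p}) m hm
  simp only [Finset.mem_union, Finset.mem_singleton, not_or] at h2
  refine ⟨ℓ, h1, h3, ?_, h2.2, h4, ?_⟩
  · intro hdvd
    exact h2.1 (Nat.mem_primeFactors.mpr ⟨h1, hdvd, hM.ne'⟩)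
  · intro h
    apply h5
    have h6 : (ℓ : ℤ) + 1 - W.apOfModel ℓ = -(W.apOfModel ℓ - ((ℓ : ℤ) + 1)) := by ring
    rw [h6]
    exact dvd_neg.mpr h

end Fermat.Agent.S41.H701
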