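import Fermat.Agent.S41.Spec.NEKummer
import Fermat.Agent.S41.H701.NEPrime

/-!
# S41, block NE' — the frozen interface statement (helper701)

`neKummer_h701 : Fermat.Agent.S41.Spec.NEKummerStatement` (Prop of `Spec/NEKummer.lean`,
sub-architect helper45).  Unconditional.  Stronger forms (with `ℓ ≠ p`, `ℓ ≠ q` and
"`q` is not a `p`-th power mod `ℓ`"): `nePrime_h701` in `NEPrime.lean`.
-/

set_option autoImplicit false

open WeierstrassCurve WeierstrassCurve.Affine WeierstrassCurve.Affine.Point

namespace Fermat.Agent.S41.H701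

/-- **Block NE'** in the frozen form of `Spec/NEKummer.lean`. -/
theorem neKummer_h701 : Fermat.Agent.S41.Spec.NEKummerStatement := by
  intro E _ W hW p hp hp2 hirr q hq m hm S
  obtain ⟨ℓ, h1, h2, -, -, h3, h4, h5, h6, h7, -⟩ := nePrime_h701 E W hW p hp hp2 hirr q hq m hm S
  refine ⟨ℓ, h1, h2, h3, h4, h5, h6, ?_⟩
  intro h
  apply h7
  have := (ZMod.natCast_eq_natCast_iff _ _ _).mpr h
  push_cast at this
  exact this

end Fermat.Agent.S41.H701
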